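/-
S59lib / StrictT / CorePlus  (helper1)  — Project I, STRICT-T item (2), part 2: THE CORE CONTRADICTION, ORDINARY FORM.

`O₂` a local ring, `U : O₂² → O₂^r` linear with `Gact σ *ᵥ U x = U (R σ *ᵥ x)`.  In the ordinary basis
`R σ = [[χ σ, *], [0, 1]]` for `σ ∈ I` (inertia), with `χ σ₀ - 1` a unit for some `σ₀ ∈ I`; `φ₂` an element with
`R φ₂ = [[*, *], [*, 1 + d]]`.  If the images mod `𝔞` of all `U (c • (R σ - 1)(R τ - 1) z)` (`σ τ ∈ I`) and of all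
`U (c • (R φ₂ - 1) z)` lie in a subgroup `PK` of `(O₂/𝔞)^r` without non-zero subquotient with trivial `I`-action, and
`U (d z) ∈ 𝔞^r ⇒ z ∈ 𝔪²`, we get a contradiction (`S33lib/Lat/Core.false_of_square` with `μ = (0, 1)`).
-/
import Mathlib
import Fermat.Agent.S33lib.Lat.Core

set_option autoImplicit false
set_option linter.unusedSectionVars false

noncomputable section

namespace Fermat.Agent.S59lib.StrictT

open Matrix IsLocalRing Fermat.Agent.S33lib.Lat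

variable {O₂ : Type*} [CommRing O₂] [IsLocalRing O₂] {r : ℕ} {G : Type*}

/-- **the core contradiction in an ordinary basis.** -/
theorem false_of_ordinary_frob (I : Set G)
    (U : (Fin 2 → O₂) →ₗ[O₂] (Fin r → O₂))
    (Gact : G → Matrix (Fin r) (Fin r) O₂) (R : G → Matrix (Fin 2) (Fin 2) O₂)
    (hU : ∀ (σ : G) (x : Fin 2 → O₂), Gact σ *ᵥ U x = U (R σ *ᵥ x))
    (h10 : ∀ σ ∈ I, R σ 1 0 = 0) (h11 : ∀ σ ∈ I, R σ 1 1 = 1)
    (σ₀ : G) (hσ₀ : σ₀ ∈ I) (hu : IsUnit (R σ₀ 0 0 - 1))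
    (φ₂ : G) (d : O₂) (hd : R φ₂ 1 1 - 1 = d) (𝔞 : Ideal O₂)
    (hsat : ∀ z : Fin 2 → O₂, (∀ i, U (d • z) i ∈ 𝔞) → ∀ k, z k ∈ maximalIdeal O₂)
    (PK : AddSubgroup (Fin r → O₂ ⧸ 𝔞))
    (hG1 : ∀ σ ∈ I, ∀ τ ∈ I, ∀ (z : Fin 2 → O₂) (c : O₂),
      (fun i => Ideal.Quotient.mk 𝔞 (U (c • ((R σ - 1) *ᵥ ((R τ - 1) *ᵥ z))) i)) ∈ PK)
    (hG2 : ∀ (z : Fin 2 → O₂) (c : O₂),
      (fun i => Ideal.Quotient.mk 𝔞 (U (c • ((R φ₂ - 1) *ᵥ z)) i)) ∈ PK)
    (hno : ∀ Γ'' Γ' : AddSubgroup (Fin r → O₂ ⧸ 𝔞), Γ'' ≤ Γ' → Γ' ≤ PK →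
      (∀ σ ∈ I, ∀ m ∈ Γ'', (Gact σ).map (Ideal.Quotient.mk 𝔞) *ᵥ m ∈ Γ'') →
      (∀ σ ∈ I, ∀ m ∈ Γ', (Gact σ).map (Ideal.Quotient.mk 𝔞) *ᵥ m ∈ Γ') →
      (∀ σ ∈ I, ∀ m ∈ Γ', (Gact σ).map (Ideal.Quotient.mk 𝔞) *ᵥ m - m ∈ Γ'') → Γ' ≤ Γ'') :
    False := by
  classical
  -- the good vectors
  let Good : (Fin 2 → O₂) → Prop := fun y =>
    ∀ c : O₂, (fun i => Ideal.Quotient.mk 𝔞 (U (c • y) i)) ∈ PK
  have good_add : ∀ y y', Good y → Good y' → Good (y + y') := by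
    intro y y' h h' c
    have := PK.add_mem (h c) (h' c)
    convert this using 1
    funext i
    simp only [smul_add, map_add, Pi.add_apply]
  have good_smul : ∀ (c' : O₂) y, Good y → Good (c' • y) := by
    intro c' y h c
    rw [smul_smul]
    exact h (c * c')
  -- `e₀` is good
  obtain ⟨u, hu'⟩ := hu
  have he0 : Good (Pi.single 0 1) := by
    have h1 : (R σ₀ - 1) *ᵥ (Pi.single 0 1 : Fin 2 → O₂) = (u : O₂) • Pi.single 0 1 := by
      funext k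
      rw [Matrix.mulVec_single_one]
      fin_cases k
      · simp [hu']
      · simp [h10 σ₀ hσ₀]
    have h2 : (R σ₀ - 1) *ᵥ ((R σ₀ - 1) *ᵥ (Pi.single 0 1 : Fin 2 → O₂)) =
        ((u : O₂) * u) • Pi.single 0 1 := by
      rw [h1, Matrix.mulVec_smul, h1, smul_smul]
    have h3 : Good (((u : O₂) * u) • Pi.single 0 1) := by
      intro c
      rw [← h2]
      exact hG1 σ₀ hσ₀ σ₀ hσ₀ _ c
    have h4 := good_smul ((↑u⁻¹ : O₂) * ↑u⁻¹) _ h3
    rw [smul_smul] at h4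
    have h5 : (↑u⁻¹ : O₂) * ↑u⁻¹ * ((u : O₂) * u) = 1 := by
      have := u.inv_mul
      calc (↑u⁻¹ : O₂) * ↑u⁻¹ * ((u : O₂) * u) = ((↑u⁻¹ : O₂) * u) * ((↑u⁻¹ : O₂) * u) := by ring
        _ = 1 := by rw [Units.inv_mul, one_mul]
    rw [h5, one_smul] at h4
    exact h4
  -- `d • e₁` is good
  have he1 : Good (d • Pi.single 1 1) := by
    have h1 : (R φ₂ - 1) *ᵥ (Pi.single 1 1 : Fin 2 → O₂) =
        R φ₂ 0 1 • Pi.single 0 1 + d • Pi.single 1 1 := by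
      funext k
      rw [Matrix.mulVec_single_one]
      fin_cases k
      · simp
      · simp [← hd]
    have h2 : d • (Pi.single 1 1 : Fin 2 → O₂) =
        (R φ₂ - 1) *ᵥ (Pi.single 1 1 : Fin 2 → O₂) + (-(R φ₂ 0 1)) • Pi.single 0 1 := by
      rw [h1, neg_smul]
      abel
    rw [h2]
    exact good_add _ _ (fun c => hG2 _ c) (good_smul _ _ he0)
  -- all `d • x` are good
  have hall : ∀ x : Fin 2 → O₂, Good (d • x) := by
    intro x
    have h1 : d • x = (d * x 0) • (Pi.single 0 1 : Fin 2 → O₂) + x 1 • (d • Pi.single 1 1) := by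
      funext k
      fin_cases k
      · simp
      · simp [mul_comm]
    rw [h1]
    exact good_add _ _ (good_smul _ _ he0) (good_smul _ _ he1)
  -- the core contradiction
  refine false_of_square I U Gact R hU (Pi.single 1 1) ⟨1, by simp⟩ ?_ d 𝔞 hsat PK ?_ hno
  · intro σ hσ j
    have h1 : ∑ k, (Pi.single 1 1 : Fin 2 → O₂) k * (R σ - 1) k j = (R σ - 1) 1 j := by
      rw [Fin.sum_univ_two]
      simp
    rw [h1]
    fin_cases j
    · simp [h10 σ hσ]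
    · simp [h11 σ hσ]
  · intro x
    have := hall x 1
    rw [one_smul] at this
    exact this

end Fermat.Agent.S59lib.StrictT
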