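/-
S59lib / StrictT / KumCore  (helper1)  — Project I, STRICT-T, the abstract geometric core.

`frobNew_kumSub` : the analogue of `LSc.frobNew_pic0` (S35, route FN) for an exponent `n` which is NOT
assumed prime to the residue characteristic.  Setting: a nodal datum `D`, a Frobenial automorphism `s`
(modular case `s = σ²`, `σ` a Frobenius lift), the two ring isomorphisms `S₁₂`, `S₂₁` with
`S₂₁ ∘ S₁₂ = t₁`, `S₁₂ ∘ S₂₁ = t₂`, and a class `x` killed by `n` all of whose bi-unit Kummer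
representatives satisfy the two DEGENERACY RELATIONS (α), (β) (modular case: `α_* x = 0 = β_* x`).  If every
element of the residue field `k` is an `n`-th power (`k` algebraically closed), then

      `s x - x ∈ Kum.kumSub D n`     (the Kummer subgroup of `S33lib`: classes with a one-unit Kummer function).

Proof: for `f` with `div f = n D₀`, the two relations give `red_i (s f / f) = c_i w_i ^ n` (first half of
`LSc.frobNew_function`); the constants are `n`-th powers, `Frame.exists_lift_pair` lifts the pair of `n`-th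
roots to a bi-unit `h₀`, and `u = (s f / f) / h₀ ^ n` reduces to `(1, 1)` with `div u = n (s D₀ - D₀ - div h₀)`.
The Čech core (where S35 needs `n` invertible) is not used.
-/
import Fermat.Agent.LSc.Core.FrobNew
import Fermat.Agent.S33lib.Kum.Sub

set_option autoImplicit false
set_option linter.unusedSectionVars false
set_option linter.unusedVariables false

noncomputable section

namespace Fermat.Agent.S59lib.StrictT

open AlgebraicCurve Module Fermat.Agent.LSb Fermat.Agent.S18lib Fermat.Agent.LSc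
open Fermat.Agent.S33lib

variable {L : Type*} [Field L] {A : ValuationSubring L}
variable {F : Type*} [Field F] [Algebra L F]
variable {F₁ F₂ : Type*} [Field F₁] [Field F₂]
variable [Algebra (IsLocalRing.ResidueField A) F₁] [Algebra (IsLocalRing.ResidueField A) F₂]

local notation "k" => IsLocalRing.ResidueField A

/-- if the constants are `n`-th powers, `kˣ · (Fkˣ)ⁿ = (Fkˣ)ⁿ` -/
theorem exists_pow_of_isConstMulPow {Fk : Type*} [Field Fk]
    [Algebra (IsLocalRing.ResidueField A) Fk] {n : ℕ} (hn : 0 < n)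
    (hkroot : ∀ c : IsLocalRing.ResidueField A, ∃ d : IsLocalRing.ResidueField A, d ^ n = c)
    {y : Fk} (hy : IsConstMulPow (A := A) n y) : ∃ w : Fk, w ≠ 0 ∧ y = w ^ n := by
  obtain ⟨c, w, hc, hw, rfl⟩ := hy
  obtain ⟨d, hd⟩ := hkroot c
  have hd0 : d ≠ 0 := by
    rintro rfl
    rw [zero_pow hn.ne'] at hd
    exact hc hd.symm
  refine ⟨algebraMap (IsLocalRing.ResidueField A) Fk d * w,
    mul_ne_zero ((map_ne_zero _).2 hd0) hw, ?_⟩
  rw [mul_pow, ← map_pow, hd]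

section Main

variable {D : NodalDatum A F F₁ F₂}

/-- **function level**: for a bi-unit `f` with `n ∣ div f` satisfying the two degeneracy relations, the
function `s f / f` is a one-unit times the `n`-th power of a bi-unit. -/
theorem frobNew_function_kum (hA : Frame.RankOneDvd A) (hne : D.V₁.O ≠ D.V₂.O)
    {s : SemilinearAut L F} {Q : ℕ}
    {t₁ : SemilinearAut k F₁} {t₂ : SemilinearAut k F₂} (hs : IsFrobenial D s Q t₁ t₂)
    (S₁₂ : F₁ ≃+* F₂) (S₂₁ : F₂ ≃+* F₁)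
    (h12 : ∀ y : F₁, S₂₁ (S₁₂ y) = t₁ • y) (h21 : ∀ y : F₂, S₁₂ (S₂₁ y) = t₂ • y)
    (hk₁₂ : ∀ c : k, c ≠ 0 → ∃ c' : k, c' ≠ 0 ∧ S₁₂ (algebraMap k F₁ c) = algebraMap k F₂ c')
    (hk₂₁ : ∀ c : k, c ≠ 0 → ∃ c' : k, c' ≠ 0 ∧ S₂₁ (algebraMap k F₂ c) = algebraMap k F₁ c')
    {n : ℕ} (hn : 0 < n) (hkroot : ∀ c : k, ∃ d : k, d ^ n = c) {f : F} (hf : IsBiUnit D f)
    (hα : IsConstMulPow (A := A) n (D.V₁.redF f * S₂₁ (D.V₂.redF f)))
    (hβ : IsConstMulPow (A := A) n (D.V₂.redF f * S₁₂ (D.V₁.redF f))) :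
    ∃ h₀ : F, IsBiUnit D h₀ ∧ D.V₁.redF (s • f * f⁻¹ * (h₀ ^ n)⁻¹) = 1 ∧
      D.V₂.redF (s • f * f⁻¹ * (h₀ ^ n)⁻¹) = 1 := by
  have hf0 := hf.ne_zero
  have hsf0 : s • f ≠ 0 := by
    rw [SemilinearAut.smul_def]
    exact (map_ne_zero _).2 hf0
  set gg : F := s • f * f⁻¹ with hgg
  -- reductions of `gg`
  have hr₁ : D.V₁.redF gg = t₁ • D.V₁.redF f / D.V₁.redF f := by
    rw [hgg, D.V₁.redF_mul ((hs.mem₁ f).2 hf.mem₁) (D.V₁.inv_mem_of_redF_ne_zero hf.1),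
      hs.red₁ f hf.mem₁, D.V₁.redF_inv hf.1, div_eq_mul_inv]
  have hr₂ : D.V₂.redF gg = t₂ • D.V₂.redF f / D.V₂.redF f := by
    rw [hgg, D.V₂.redF_mul ((hs.mem₂ f).2 hf.mem₂) (D.V₂.inv_mem_of_redF_ne_zero hf.2),
      hs.red₂ f hf.mem₂, D.V₂.redF_inv hf.2, div_eq_mul_inv]
  have hS₂₁ne : S₂₁ (D.V₂.redF f) ≠ 0 := (map_ne_zero_iff _ S₂₁.injective).2 hf.2
  have hS₁₂ne : S₁₂ (D.V₁.redF f) ≠ 0 := (map_ne_zero_iff _ S₁₂.injective).2 hf.1
  have hc₁ : IsConstMulPow (A := A) n (D.V₁.redF gg) := by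
    have h1 := IsConstMulPow.map S₂₁ hk₂₁ hβ
    rw [map_mul, h12] at h1
    have h2 := h1.div hα
    have e : S₂₁ (D.V₂.redF f) * t₁ • D.V₁.redF f / (D.V₁.redF f * S₂₁ (D.V₂.redF f)) =
        t₁ • D.V₁.redF f / D.V₁.redF f := by
      field_simp
    rwa [e, ← hr₁] at h2
  have hc₂ : IsConstMulPow (A := A) n (D.V₂.redF gg) := by
    have h1 := IsConstMulPow.map S₁₂ hk₁₂ hα
    rw [map_mul, h21] at h1
    have h2 := h1.div hβ
    have e : S₁₂ (D.V₁.redF f) * t₂ • D.V₂.redF f / (D.V₂.redF f * S₁₂ (D.V₁.redF f)) =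
        t₂ • D.V₂.redF f / D.V₂.redF f := by
      field_simp
    rwa [e, ← hr₂] at h2
  -- the constants are `n`-th powers
  obtain ⟨w₁, hw₁, hrw₁⟩ := exists_pow_of_isConstMulPow (A := A) hn hkroot hc₁
  obtain ⟨w₂, hw₂, hrw₂⟩ := exists_pow_of_isConstMulPow (A := A) hn hkroot hc₂
  obtain ⟨h₀, hm₁, hm₂, hw₁', hw₂'⟩ := Frame.exists_lift_pair hA hne w₁ w₂
  have hb : IsBiUnit D h₀ := ⟨by rw [hw₁']; exact hw₁, by rw [hw₂']; exact hw₂⟩
  have hbn := (hb.pow n).inv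
  have hg₁ : D.V₁.redF gg ≠ 0 := by rw [hrw₁]; exact pow_ne_zero n hw₁
  have hg₂ : D.V₂.redF gg ≠ 0 := by rw [hrw₂]; exact pow_ne_zero n hw₂
  refine ⟨h₀, hb, ?_, ?_⟩
  · rw [D.V₁.redF_mul (D.V₁.mem_of_redF_ne_zero hg₁) hbn.mem₁, D.V₁.redF_inv (hb.pow n).1,
      D.V₁.redF_pow hb.mem₁, hw₁', hrw₁, mul_inv_cancel₀ (pow_ne_zero n hw₁)]
  · rw [D.V₂.redF_mul (D.V₂.mem_of_redF_ne_zero hg₂) hbn.mem₂, D.V₂.redF_inv (hb.pow n).2,
      D.V₂.redF_pow hb.mem₂, hw₂', hrw₂, mul_inv_cancel₀ (pow_ne_zero n hw₂)]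

variable {g g₁ g₂ : ℕ}

/-- **`Pic⁰` level: Frobenius on the new classes, for an arbitrary exponent.**  For a class `x` killed by
`n` such that every bi-unit Kummer representative of `x` satisfies the two degeneracy relations:
`s x - x` lies in the Kummer subgroup `kumSub D n`. -/
theorem frobNew_kumSub (C : NodalCtx D g g₁ g₂) (hne : D.V₁.O ≠ D.V₂.O)
    {s : SemilinearAut L F} {Q : ℕ}
    {t₁ : SemilinearAut k F₁} {t₂ : SemilinearAut k F₂} (hs : IsFrobenial D s Q t₁ t₂)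
    (S₁₂ : F₁ ≃+* F₂) (S₂₁ : F₂ ≃+* F₁)
    (h12 : ∀ y : F₁, S₂₁ (S₁₂ y) = t₁ • y) (h21 : ∀ y : F₂, S₁₂ (S₂₁ y) = t₂ • y)
    (hk₁₂ : ∀ c : k, c ≠ 0 → ∃ c' : k, c' ≠ 0 ∧ S₁₂ (algebraMap k F₁ c) = algebraMap k F₂ c')
    (hk₂₁ : ∀ c : k, c ≠ 0 → ∃ c' : k, c' ≠ 0 ∧ S₂₁ (algebraMap k F₂ c) = algebraMap k F₁ c')
    {n : ℕ} (hn : 0 < n) (hkroot : ∀ c : k, ∃ d : k, d ^ n = c)
    (hroot : ∀ c : L, ∃ d : L, d ^ n = c)
    (x : Pic0 L F) (hx : n • x = 0)
    (Hα : ∀ (D₀ : Divisor.degZero (K := L) (F := F)) (f : F), x = Pic0.mk D₀ → IsBiUnit D f →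
      (∀ P : Place L F, P.ord f = (n : ℤ) * (D₀ : Divisor L F) P) →
        IsConstMulPow (A := A) n (D.V₁.redF f * S₂₁ (D.V₂.redF f)))
    (Hβ : ∀ (D₀ : Divisor.degZero (K := L) (F := F)) (f : F), x = Pic0.mk D₀ → IsBiUnit D f →
      (∀ P : Place L F, P.ord f = (n : ℤ) * (D₀ : Divisor L F) P) →
        IsConstMulPow (A := A) n (D.V₂.redF f * S₁₂ (D.V₁.redF f))) :
    s • x - x ∈ Kum.kumSub D n := by
  have := C.hF.hasPrincipalDivisors
  obtain ⟨D₀, rfl⟩ := Pic0.mk_surjective x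
  -- `n D₀` is principal
  have hprinc : n • (D₀ : Divisor L F) ∈ Divisor.principal (K := L) (F := F) := by
    have h1 : Pic0.mk (n • D₀) = 0 := hx
    have h2 := (QuotientAddGroup.eq_zero_iff _).1 h1
    rw [AddSubgroup.mem_addSubgroupOf] at h2
    simpa using h2
  obtain ⟨f₀, hf₀0, hf₀div⟩ := hprinc
  -- bi-unit normalisation
  obtain ⟨c, h, hc0, hh0, hbi⟩ := exists_biUnit (D := D) C.rankOne hne hn hroot hf₀0
  obtain ⟨Dh, hDh, hDhdeg⟩ := HasPrincipalDivisors.exists_divisor (K := L) h hh0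
  set Eh : Divisor.degZero (K := L) (F := F) := ⟨Dh, hDhdeg⟩ with hEh
  have hEh0 : Pic0.mk Eh = 0 := by
    apply (QuotientAddGroup.eq_zero_iff _).2
    rw [AddSubgroup.mem_addSubgroupOf]
    exact ⟨h, hh0, hDh⟩
  set D₀' : Divisor.degZero (K := L) (F := F) := D₀ + Eh with hD₀'
  have hmk : Pic0.mk D₀ = Pic0.mk D₀' := by
    rw [hD₀', Pic0.mk_add, hEh0, add_zero]
  set f : F := algebraMap L F c * h ^ n * f₀ with hf
  have hfdiv : ∀ P : Place L F, P.ord f = (n : ℤ) * (D₀' : Divisor L F) P := by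
    intro P
    have hcF : algebraMap L F c ≠ 0 := (map_ne_zero _).2 hc0
    rw [hf, P.ord_mul (mul_ne_zero hcF (pow_ne_zero n hh0)) hf₀0,
      P.ord_mul hcF (pow_ne_zero n hh0), S18lib.Cech.ord_const, S18lib.Cech.ord_pow, zero_add,
      ← hf₀div P, hD₀']
    show (n : ℤ) * P.ord h + (n • (D₀ : Divisor L F)) P =
      (n : ℤ) * ((D₀ : Divisor L F) + (Eh : Divisor L F)) P
    rw [Finsupp.add_apply, Finsupp.smul_apply, nsmul_eq_mul, hEh]
    show _ = (n : ℤ) * ((D₀ : Divisor L F) P + Dh P)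
    rw [hDh P]
    ring
  obtain ⟨h₀, hb₀, hu₁, hu₂⟩ := frobNew_function_kum C.rankOne hne hs S₁₂ S₂₁ h12 h21 hk₁₂ hk₂₁
    hn hkroot hbi (Hα D₀' f hmk hbi hfdiv) (Hβ D₀' f hmk hbi hfdiv)
  have hf0 := hbi.ne_zero
  have hsf0 : s • f ≠ 0 := by
    rw [SemilinearAut.smul_def]
    exact (map_ne_zero _).2 hf0
  have hh₀0 := hb₀.ne_zero
  -- the divisor of `h₀`
  obtain ⟨Dh₀, hDh₀, hDh₀deg⟩ := HasPrincipalDivisors.exists_divisor (K := L) h₀ hh₀0
  set Eh₀ : Divisor.degZero (K := L) (F := F) := ⟨Dh₀, hDh₀deg⟩ with hEh₀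
  have hEh₀0 : Pic0.mk Eh₀ = 0 := by
    apply (QuotientAddGroup.eq_zero_iff _).2
    rw [AddSubgroup.mem_addSubgroupOf]
    exact ⟨h₀, hh₀0, hDh₀⟩
  rw [hmk]
  set E : Divisor.degZero (K := L) (F := F) :=
    SemilinearAut.degZeroSMulHom s D₀' - D₀' - Eh₀ with hE
  refine ⟨E, s • f * f⁻¹ * (h₀ ^ n)⁻¹, ?_, ?_⟩
  · have h4 : Pic0.mk E = Pic0.mk (SemilinearAut.degZeroSMulHom s D₀') - Pic0.mk D₀' - Pic0.mk Eh₀ :=
      rfl
    rw [h4, hEh₀0, sub_zero, SemilinearAut.pic0_smul_mk]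
  · refine ⟨mul_ne_zero (mul_ne_zero hsf0 (inv_ne_zero hf0))
      (inv_ne_zero (pow_ne_zero n hh₀0)), fun P => ?_, hu₁, hu₂⟩
    rw [P.ord_mul (mul_ne_zero hsf0 (inv_ne_zero hf0)) (inv_ne_zero (pow_ne_zero n hh₀0)),
      P.ord_mul hsf0 (inv_ne_zero hf0), P.ord_inv, P.ord_inv, S18lib.Cech.ord_pow,
      NodalDatum.IsInertial.ord_smul_eq, hfdiv, hfdiv, ← hDh₀ P]
    show _ = (n : ℤ) * ((s • (D₀' : Divisor L F)) P - (D₀' : Divisor L F) P - Dh₀ P)
    rw [SemilinearAut.divisor_smul_apply]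
    ring

end Main

end Fermat.Agent.S59lib.StrictT

/-! ### The Kummer subgroup only depends on the two Gauss valuation rings -/

noncomputable section

namespace Fermat.Agent.S59lib.StrictT

open AlgebraicCurve Fermat.Agent.LSb Fermat.Agent.S18lib Fermat.Agent.S33lib

variable {L : Type*} [Field L] {A : ValuationSubring L}
variable {F : Type*} [Field F] [Algebra L F]

/-- `red z = 1` in terms of the valuation ring alone -/
theorem redF_eq_one_iff {Fk : Type*} [Field Fk] [Algebra (IsLocalRing.ResidueField A) Fk]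
    (V : GaussDatum A F Fk) (z : F) :
    V.redF z = 1 ↔ ∃ h : z - 1 ∈ V.O, (⟨z - 1, h⟩ : V.O) ∈ IsLocalRing.maximalIdeal V.O := by
  constructor
  · intro hz
    have hzO : z ∈ V.O := V.mem_of_redF_ne_zero (by rw [hz]; exact one_ne_zero)
    have h1 : z - 1 ∈ V.O := V.O.sub_mem hzO V.O.one_mem
    refine ⟨h1, ?_⟩
    rw [← V.redF_eq_zero_iff h1, V.redF_sub hzO V.O.one_mem, hz, V.redF_one, sub_self]
  · rintro ⟨h1, hm⟩
    have hzO : z ∈ V.O := by
      have := V.O.add_mem _ _ h1 V.O.one_mem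
      rwa [sub_add_cancel] at this
    have h0 : V.redF (z - 1) = 0 := (V.redF_eq_zero_iff h1).2 hm
    rw [V.redF_sub hzO V.O.one_mem, V.redF_one, sub_eq_zero] at h0
    exact h0

/-- two Gauss data with the same valuation ring have the same one-units -/
theorem redF_eq_one_iff_of_O_eq {Fk Fk' : Type*} [Field Fk] [Field Fk']
    [Algebra (IsLocalRing.ResidueField A) Fk] [Algebra (IsLocalRing.ResidueField A) Fk']
    (V : GaussDatum A F Fk) (V' : GaussDatum A F Fk') (h : V.O = V'.O) (z : F) :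
    V.redF z = 1 ↔ V'.redF z = 1 := by
  rw [redF_eq_one_iff, redF_eq_one_iff]
  have key : ∀ O O' : ValuationSubring F, O = O' →
      ((∃ h : z - 1 ∈ O, (⟨z - 1, h⟩ : O) ∈ IsLocalRing.maximalIdeal O) ↔
        ∃ h : z - 1 ∈ O', (⟨z - 1, h⟩ : O') ∈ IsLocalRing.maximalIdeal O') := by
    rintro O O' rfl
    exact Iff.rfl
  exact key _ _ h

variable {F₁ F₂ F₁' F₂' : Type*} [Field F₁] [Field F₂] [Field F₁'] [Field F₂']
variable [Algebra (IsLocalRing.ResidueField A) F₁] [Algebra (IsLocalRing.ResidueField A) F₂]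
variable [Algebra (IsLocalRing.ResidueField A) F₁'] [Algebra (IsLocalRing.ResidueField A) F₂']

/-- **the Kummer subgroup only depends on the two Gauss valuation rings** -/
theorem kumSub_le_of_O_eq (D : NodalDatum A F F₁ F₂) (D' : NodalDatum A F F₁' F₂')
    (h₁ : D.V₁.O = D'.V₁.O) (h₂ : D.V₂.O = D'.V₂.O) (m : ℕ) :
    Kum.kumSub D m ≤ Kum.kumSub D' m := by
  rintro x ⟨D₀, z, rfl, hz⟩
  exact ⟨D₀, z, rfl, ⟨hz.ne_zero, hz.ord_eq,
    (redF_eq_one_iff_of_O_eq D.V₁ D'.V₁ h₁ z).1 hz.red₁,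
    (redF_eq_one_iff_of_O_eq D.V₂ D'.V₂ h₂ z).1 hz.red₂⟩⟩

theorem kumSub_eq_of_O_eq (D : NodalDatum A F F₁ F₂) (D' : NodalDatum A F F₁' F₂')
    (h₁ : D.V₁.O = D'.V₁.O) (h₂ : D.V₂.O = D'.V₂.O) (m : ℕ) :
    Kum.kumSub D m = Kum.kumSub D' m :=
  le_antisymm (kumSub_le_of_O_eq D D' h₁ h₂ m) (kumSub_le_of_O_eq D' D h₁.symm h₂.symm m)

end Fermat.Agent.S59lib.StrictT
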