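/-
S59lib / StrictT / FrobKum  (helper1)  — Project I, STRICT-T: Frobenius on the `q`-new classes of
`J₀(M q)[n]`, for EVERY exponent `n ≥ 1` (in particular `n = q ^ k`, the residue characteristic).

`frobNew_goodPair_kum` : for a good pair `(M, q)`, `A ∣ q`, `σ` a Frobenius lift at `A` and a class
`x ∈ Pic⁰ (FBar (M q))[n]` with `α_* x = 0 = β_* x`:

      `σ² x - x ∈ Kum.kumSub D n`

for the nodal datum `D` of LSc's instance package (`D.V₁ = Val.gaussOne`, `D.V₂ = modD2`).
This is `StrictT.frobNew_kumSub` fed with helper4's `exists_frobenial_package` and the degeneracy relations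
`hAlpha`, `hBeta` of `LSc/Inst/DegInst` (valid for every `n`); the residue field of `A` is algebraically closed.
-/
import Mathlib
import Fermat.Agent.LSc.Inst.FrobNewGood
import Fermat.Agent.S59lib.StrictT.KumCore

set_option autoImplicit false
set_option linter.unusedSectionVars false
set_option linter.unusedVariables false
set_option linter.style.haveILetI false

noncomputable section

namespace Fermat.Agent.S59lib.StrictT

open AlgebraicCurve ModularCurve Fermat.Agent.S18lib Fermat.Agent.LSb Fermat.Agent.LSb.Unit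
open Fermat.Agent.LSc Fermat.Agent.LSc.Inst Fermat.Agent.S37lib Fermat.Agent.S33lib

local notation "Qb" => AlgebraicClosure ℚ

variable {M q : ℕ} [NeZero M] [NeZero q] [hq : Fact q.Prime]
variable {A : ValuationSubring (AlgebraicClosure ℚ)}

local notation "kA" => IsLocalRing.ResidueField A

/-- **Frobenius on the new classes, every exponent, on `Pic⁰`.** -/
theorem frobNew_goodPair_kum [HasPrincipalDivisors Qb (FBar (M * q))]
    (hqM : ¬ q ∣ M) (hA : A.LiesOverPrime q) (hgood : GoodPair M q)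
    {σ : Qb ≃ₐ[ℚ] Qb} (hσ : A.IsFrobeniusAt σ q) {n : ℕ} (hn : 0 < n)
    (x : Pic0 Qb (FBar (M * q))) (hx : n • x = 0)
    (hα : alphaPush M q x = 0) (hβ : betaPush M q x = 0) :
    ∃ D : NodalDatum A (FBar (M * q)) (FRes A M) (FRes A M),
      D.V₁ = Val.gaussOne M q A hqM hA ∧
      D.V₂ = modD2 hqM (Val.gaussOne M q A hqM hA) ∧
      arithmeticGalois (modularFunctionFieldFull (M * q)) (σ * σ) • x - x ∈ Kum.kumSub D n := by
  obtain ⟨g, hF, -⟩ := Gin0.exists_isCurveOfGenus_FBar (M * q)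
  obtain ⟨gM, hFk⟩ := B3.exists_isCurveOfGenus_FRes (A := A) M hqM hA
  haveI : HasPrincipalDivisors Qb (FBar M) := HeckeInst.hasPrincipalDivisors_FB M
  haveI : HasPrincipalDivisors kA (FRes A M) := hFk.hasPrincipalDivisors
  haveI : IsAlgClosed kA := Gink.isAlgClosed_residueField A
  obtain ⟨D, hV₁, hV₂, C, hcech, hne, hs⟩ :=
    exists_frobenial_package hqM hA hgood hF hFk hσ
  have h1 : Old.IsGaussOne (Val.gaussOne M q A hqM hA) := Val.isGaussOne_gaussOne M q A hqM hA
  have h2 := isGaussTwo_modD2 hqM (Val.gaussOne M q A hqM hA)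
  have hwq : ∀ y, wqR M q hqM (wqR M q hqM y) = y := fun y => Val.wq_wq M q hq.out hqM y
  have hroot : ∀ c : Qb, ∃ d : Qb, d ^ n = c := fun c => IsAlgClosed.exists_pow_nat_eq c hn
  have hkroot : ∀ c : kA, ∃ d : kA, d ^ n = c := fun c => IsAlgClosed.exists_pow_nat_eq c hn
  have hk : ∀ c : kA, c ≠ 0 → ∃ c' : kA, c' ≠ 0 ∧
      SemilinearAut.toRingAut (tauQ M hA) (algebraMap kA (FRes A M) c) =
        algebraMap kA (FRes A M) c' := fun c hc =>
    ⟨SemilinearAut.baseAut (tauQ M hA) c,
      (map_ne_zero_iff _ (SemilinearAut.baseAut (tauQ M hA)).injective).2 hc,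
      SemilinearAut.smul_algebraMap (tauQ M hA) c⟩
  refine ⟨D, hV₁, hV₂, ?_⟩
  exact frobNew_kumSub C hne hs (SemilinearAut.toRingAut (tauQ M hA))
    (SemilinearAut.toRingAut (tauQ M hA)) (fun y => rfl) (fun y => rfl) hk hk hn hkroot hroot x hx
    (hAlpha hqM hA h1 h2 hwq D hV₁ hV₂ n x hα) (hBeta hqM hA h1 h2 hwq D hV₁ hV₂ n x hβ)

end Fermat.Agent.S59lib.StrictT
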