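/-
S59lib / StrictT / NInstG  (helper1)  — Project I, STRICT-T: the nodal package of `S33lib` (track B of
project LSp) RE-ISSUED WITH ITS TWO GAUSS VALUATION RINGS EXPORTED.

`S33lib.NInst.HasNRedInstance` and `S33lib.N.NModInst` hide the nodal datum behind an existential; the
Kummer subgroup `Kum.kumSub M.D.nod (p ^ n)` (= the `K` of `PFiltStmt`) only depends on the two valuation
rings `V₁.O`, `V₂.O` (`StrictT.kumSub_eq_of_O_eq`), so it is enough to know that these are the rings of
`Val.gaussOne M q A` and `Unit.modD2 (Val.gaussOne M q A)` — the valuations of LSc's instance package.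

* `hasNRedInstanceG` : the instance contract at a good pair, with the two rings;
* `exists_nModInstG` : the nodal package `NModInst (M q) q A` with the two rings.
-/
import Mathlib
import Fermat.Agent.S33lib.N.Geom

set_option autoImplicit false
set_option linter.unusedSectionVars false
set_option linter.unusedVariables false
set_option linter.style.haveILetI false

noncomputable section

namespace Fermat.Agent.S59lib.StrictT

open AlgebraicCurve ModularCurve Fermat.Agent.S18lib Fermat.Agent.LSb Fermat.Agent.S37lib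
open Fermat.Agent.S29lib.GH Fermat.Agent.S33lib Fermat.Agent.S33lib.NInst Fermat.Agent.S19lib

local notation "Qb" => AlgebraicClosure ℚ
local notation "GQ" => (AlgebraicClosure ℚ ≃ₐ[ℚ] AlgebraicClosure ℚ)

variable {M q : ℕ} [NeZero M] [NeZero q] [hq : Fact q.Prime] {A : ValuationSubring Qb}

/-- **The instance contract of track B with the two Gauss rings exported.** -/
def HasNRedInstanceG (M q : ℕ) [NeZero M] [NeZero q] [Fact q.Prime] (A : ValuationSubring Qb)
    (hqM : ¬ q ∣ M) (hA : A.LiesOverPrime q) : Prop :=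
  ∃ (F₁ F₂ : Type) (_ : Field F₁) (_ : Field F₂) (_ : Algebra (kRes A) F₁)
    (_ : Algebra (kRes A) F₂) (_ : HasPrincipalDivisors Qb (FBar (M * q)))
    (_ : HasPrincipalDivisors (kRes A) F₁) (_ : HasPrincipalDivisors (kRes A) F₂)
    (D : S33lib.N.NRedDatum A (FBar (M * q)) F₁ F₂) (g g₁ g₂ : ℕ) (S : S33lib.N.NSym D ↥(IAq A)),
    (∀ h : ↥(IAq A), S.ρ h = arithmeticGalois (modularFunctionFieldFull (M * q)) (h : GQ)) ∧
    (∀ σ ∈ IAq A, D.nod.IsInertial (arithmeticGalois (modularFunctionFieldFull (M * q)) σ)) ∧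
    S33lib.N.NLiftCtx D S g g₁ g₂ ∧
    D.nod.V₁.O = (Val.gaussOne M q A hqM hA).O ∧
    D.nod.V₂.O = (Unit.modD2 hqM (Val.gaussOne M q A hqM hA)).O

/-- **the instance from the COUNT inequality**, with the two rings -/
theorem hasNRedInstanceG_of_count (hqM : ¬ q ∣ M) (hA : A.LiesOverPrime q)
    (hcount : ∀ g gM : ℕ, IsCurveOfGenus Qb (FBar (M * q)) g →
      IsCurveOfGenus (IsLocalRing.ResidueField A) (FRes A M) gM →
      g + 1 ≤ gM + gM + Unit.modS (Val.gaussOne M q A hqM hA)) :
    HasNRedInstanceG M q A hqM hA := by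
  obtain ⟨g, hF, -⟩ := Gin0.exists_isCurveOfGenus_FBar (M * q)
  obtain ⟨g', hFM, -⟩ := Gin0.exists_isCurveOfGenus_FBar M
  obtain ⟨gM, hFk⟩ := S37lib.B3.exists_isCurveOfGenus_FRes A M hqM hA
  haveI : HasPrincipalDivisors Qb (FBar (M * q)) := hF.hasPrincipalDivisors
  haveI : HasPrincipalDivisors Qb (FBar M) := hFM.hasPrincipalDivisors
  haveI hpk : HasPrincipalDivisors (IsLocalRing.ResidueField A) (FRes A M) :=
    hFk.hasPrincipalDivisors
  haveI : IsAlgClosed (IsLocalRing.ResidueField A) := Gink.isAlgClosed_residueField A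
  haveI : Infinite (IsLocalRing.ResidueField A) := IsAlgClosed.instInfinite
  have h1 := Val.isGaussOne_gaussOne M q A hqM hA
  set D1 := Val.gaussOne M q A hqM hA with hD1
  have h2 := Unit.isGaussTwo_modD2 hqM D1
  have C : NodalCtx (Unit.modDatum hA D1 (Unit.modD2 hqM D1)) g gM gM :=
    Unit.modNodalCtx' hqM hA h1 hF hFk (hcount g gM hF hFk)
  have hI : ∀ σ ∈ IAq A, (Unit.modDatum hA D1 (Unit.modD2 hqM D1)).IsInertial
      (galAutBar (M * q) σ) := fun σ hσ =>
    Unit.modDatum_isInertial hqM hA h1 (fun x hx => Val.gaussOne_O_le M q A hqM hA hx) σ hσ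
  have hr : ∀ σ ∈ IAq A, ∀ P : Place Qb (FBar (M * q)),
      (NRed.toNRedDatum C.toNCtx).r (galAutBar (M * q) σ • P) =
        (NRed.toNRedDatum C.toNCtx).r P := fun σ hσ P =>
    NRed.toNRedDatum_r_smul C (hI σ hσ) P
  refine ⟨FRes A M, FRes A M, inferInstance, inferInstance, inferInstance, inferInstance,
    inferInstance, hpk, hpk, NRed.toNRedDatum C.toNCtx, g, gM, gM,
    nSymOf (NRed.toNRedDatum C.toNCtx) hI hr, fun h => rfl, hI, ?_, rfl, rfl⟩
  exact
    { ctx := C
      infinite_k := inferInstance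
      lifts := nSymOf_hasFixedLifts hqM hA (NRed.toNRedDatum C.toNCtx) hI hr h1 h2 hF
      frame := ⟨nFrameOf C _ fun h => ⟨(hI h.1 h.2).smul_P₁, (hI h.1 h.2).smul_P₂⟩⟩ }

/-- **THE INSTANCE at every good pair**, with the two rings -/
theorem hasNRedInstanceG (hqM : ¬ q ∣ M) (hgood : GoodPair M q) (hA : A.LiesOverPrime q) :
    HasNRedInstanceG M q A hqM hA := by
  rcases hgood with h5 | ⟨h2, h9⟩ | ⟨h3, h4⟩
  · exact hasNRedInstanceG_of_count hqM hA fun g gM hF hFk =>
      Unit.mod_count_five_le h5 hqM hA (Val.isGaussOne_gaussOne M q A hqM hA) hF hFk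
  · subst h2
    exact hasNRedInstanceG_of_count hqM hA fun g gM hF hFk =>
      Count23.count_two h9 hqM hA (Val.isGaussOne_gaussOne M 2 A hqM hA) hF hFk
  · subst h3
    exact hasNRedInstanceG_of_count hqM hA fun g gM hF hFk =>
      Count23.count_three h4 hqM hA (Val.isGaussOne_gaussOne M 3 A hqM hA) hF hFk

/-- **the nodal package with the two rings** -/
theorem exists_nModInstG (hqM : ¬ q ∣ M) (hgood : GoodPair M q) (hA : A.LiesOverPrime q) :
    ∃ Mi : S33lib.N.NModInst (M * q) q A,
      Mi.D.nod.V₁.O = (Val.gaussOne M q A hqM hA).O ∧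
      Mi.D.nod.V₂.O = (Unit.modD2 hqM (Val.gaussOne M q A hqM hA)).O := by
  obtain ⟨F₁, F₂, i₁, i₂, i₃, i₄, hpd, hpd₁, hpd₂, D, g, g₁, g₂, S, hρ, hI, C, hO₁, hO₂⟩ :=
    hasNRedInstanceG hqM hgood hA
  have hR : S.R = A0 A := S33lib.N.R_eq_of S.toIAct hρ
  have hϖ : A.valuation ((q : ℕ) : Qb) < 1 := (A.mem_nonunits_iff).mp hA
  have hε : ∀ ε ∈ S.R, A.valuation ε < 1 → A.valuation ε ≤ A.valuation ((q : ℕ) : Qb) := by
    intro ε hε hlt
    rw [hR] at hε
    exact Fermat.Agent.S19lib.D.valuation_le_of_mem_A0 hq.out A hA hε hlt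
  exact ⟨{ F₁ := F₁
           F₂ := F₂
           fld₁ := i₁
           fld₂ := i₂
           alg₁ := i₃
           alg₂ := i₄
           g := g
           g₁ := g₁
           g₂ := g₂
           hpd := hpd
           hpd₁ := hpd₁
           hpd₂ := hpd₂
           D := D
           ctx := C.ctx
           inertial := hI
           S := S
           ρ_eq := hρ
           famS := S33lib.N.nFamOfCtx_holds A (FBar (M * q)) F₁ F₂ _ D S g g₁ g₂ C
           triS := S33lib.N.nExistsTriStmt_of C hϖ hε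
             (S33lib.N.nTriOfCtx_holds A (FBar (M * q)) F₁ F₂ _ D S g g₁ g₂ C)
           kerS := S33lib.NB.nKerStmt_of C.ctx }, hO₁, hO₂⟩

end Fermat.Agent.S59lib.StrictT
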