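/-
S59lib / StrictT / GeomDirect  (helper1)  — Project I, STRICT-T: the geometric input at a good pair.

`exists_pFiltNew_goodPair` : for a good pair `(M, q)`, `q` odd, `A ∣ q` and every `n`, THE subgroup
`K = Kum.kumSub D (q ^ n) ≤ J₀(M q)[q^n]` of `S33lib`'s `PFiltStmt` (inertia-stable, containing
`(σ - 1)(τ - 1) J₀(M q)[q^n]` for inertial `σ, τ`, without non-zero subquotient with trivial inertia action)
satisfies in addition

  **(P4)**  `σ² x - x ∈ K` for every Frobenius lift `σ` at `A` and every `q`-NEW class `x ∈ J₀(M q)[q^n]`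
            (`α_* x = 0 = β_* x`, `S35lib.IsQNew`).

(P1)–(P3) are `S33lib/N/Main.NModInst.exists_pFilt` + `Germ` + `Conn`; (P4) is `StrictT.frobNew_goodPair_kum`
transported along `kumSub_eq_of_O_eq`.
-/
import Mathlib
import Fermat.Agent.S59lib.StrictT.FrobKum
import Fermat.Agent.S59lib.StrictT.NInstG
import Fermat.Agent.S33lib.Conn.Main
import Fermat.Agent.S35lib.Interface

set_option autoImplicit false
set_option linter.unusedSectionVars false
set_option linter.unusedVariables false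
set_option linter.style.haveILetI false

noncomputable section

namespace Fermat.Agent.S59lib.StrictT

open AlgebraicCurve ModularCurve Fermat.Agent.S18lib Fermat.Agent.LSb Fermat.Agent.S37lib
open Fermat.Agent.S33lib Fermat.Agent.S19lib Fermat.Agent.LSc.Inst
open Fermat.Agent.S19lib.D (compStmt_A0)

local notation "Qb" => AlgebraicClosure ℚ
local notation "GQ" => (AlgebraicClosure ℚ ≃ₐ[ℚ] AlgebraicClosure ℚ)

variable {M q : ℕ} [NeZero M] [NeZero q] [hq : Fact q.Prime] {A : ValuationSubring Qb}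

/-- **(P1)–(P4) at a good pair.** -/
theorem exists_pFiltNew_goodPair (hqM : ¬ q ∣ M) (hgood : GoodPair M q) (hq2 : q ≠ 2)
    (hA : A.LiesOverPrime q) (n : ℕ) :
    ∃ K : AddSubgroup (JZero (M * q)), K ≤ tors (M * q) ((q : ℤ) ^ n) ∧
      (∀ σ ∈ IA A, ∀ x ∈ K, σ • x ∈ K) ∧
      (∀ σ ∈ IA A, ∀ τ ∈ IA A, ∀ x ∈ tors (M * q) ((q : ℤ) ^ n),
        σ • (τ • x - x) - (τ • x - x) ∈ K) ∧
      NoTrivSubquotIn A K ∧
      ∀ σ : GQ, A.IsFrobeniusAt σ q → ∀ x ∈ tors (M * q) ((q : ℤ) ^ n),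
        Fermat.Agent.S35lib.IsQNew M q x → σ • σ • x - x ∈ K := by
  obtain ⟨Mi, hO₁, hO₂⟩ := exists_nModInstG hqM hgood hA
  haveI : CharP (kRes A) q := Fermat.Agent.S18lib.V.charP_residueField A hA
  haveI : ExpChar (kRes A) q := ExpChar.prime hq.out
  obtain ⟨G, hG⟩ := Mi.exists_iGerm (compStmt_A0 A hA)
  set K : AddSubgroup (JZero (M * q)) := Kum.kumSub Mi.D.nod (q ^ n) with hK
  have hkill : ∀ x ∈ K, (q ^ n : ℕ) • x = 0 := fun x hx => Kum.nsmul_eq_zero_of_mem hx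
  have hKle : K ≤ tors (M * q) ((q : ℤ) ^ n) := by
    intro x hx
    have h0 := hkill x hx
    show x ∈ Submodule.torsionBy ℤ (JZero (M * q)) ((q : ℤ) ^ n)
    rw [Submodule.mem_torsionBy_iff]
    rw [← h0, ← natCast_zsmul]
    push_cast
    rfl
  have hKG : K ≤ G.K := by
    rw [hG]
    exact Mi.kumSub_le_NKred n
  have hst : ∀ σ ∈ IA A, ∀ x ∈ K, σ • x ∈ K := fun σ hσ x hx =>
    Kum.jZero_smul_mem σ (Mi.inertial σ hσ) hx
  have hm : ((q : ℤ) ^ n) ≠ 0 := pow_ne_zero _ (by exact_mod_cast hq.out.ne_zero)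
  haveI : Finite K := Germ.finite_of_le_tors hm hKle
  obtain ⟨O, hO⟩ := Germ.exists_connected_hopfOrder_of_iGerm hA G K hKG hst
  have hno : NoTrivSubquotIn A K :=
    Conn.connStmt q hq.out hq2 A hA _ K n hkill hst O hO
  refine ⟨K, hKle, hst, ?_, hno, ?_⟩
  · intro σ hσ τ hτ x hx
    refine Kum.jZero_comm_mem σ τ (Mi.inertial σ hσ) (Mi.inertial τ hτ) ?_
    have h1 : ((q : ℤ) ^ n) • x = 0 := (Submodule.mem_torsionBy_iff _ _).1 hx
    rw [← h1, ← natCast_zsmul]
    push_cast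
    rfl
  · intro σ hσ x hx hnew
    haveI : HasPrincipalDivisors Qb (FBar (M * q)) := HeckeInst.hasPrincipalDivisors_FB (M * q)
    have hx' : (q ^ n) • x = 0 := by
      have h1 : ((q : ℤ) ^ n) • x = 0 := (Submodule.mem_torsionBy_iff _ _).1 hx
      rw [← h1, ← natCast_zsmul]
      push_cast
      rfl
    obtain ⟨D', hV₁, hV₂, hmem⟩ := frobNew_goodPair_kum hqM hA hgood hσ
      (pow_pos hq.out.pos n) x hx' hnew.1 hnew.2
    have e₁ : D'.V₁.O = Mi.D.nod.V₁.O := by rw [hV₁, hO₁]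
    have e₂ : D'.V₂.O = Mi.D.nod.V₂.O := by rw [hV₂, hO₂]
    have hmem' := kumSub_le_of_O_eq D' Mi.D.nod e₁ e₂ (q ^ n) hmem
    rw [← galois_smul_pic0_def, mul_smul] at hmem'
    exact hmem'

end Fermat.Agent.S59lib.StrictT
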