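/-
S59lib / StrictT / XferAbs  (helper1)  — Project I, STRICT-T: abstract transfer of the algebraic filtration WITH
the Frobenius clause (P4) along an equivariant additive map `pull : J → J'` whose kernel is killed by
`d = p^c u`, `(u, p) = 1`.  Copy of helper4's `S33lib/Conn/XferPull.exists_filt_of_pull` with one more clause:
if `p^c₀ (σ² - 1) y ∈ K'` for the new classes `y ∈ J'[p^(n+c+c₀)]` and `pull` preserves newness, then
`p^(c₀+c) (σ² - 1) x ∈ K := p^c (pull⁻¹ K' ∩ J[p^(n+c)])` for the new classes `x ∈ J[p^(n+c₀+c)]`.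
-/
import Mathlib
import Fermat.Agent.S33lib.Conn.XferPull

set_option autoImplicit false
set_option linter.unusedSectionVars false
set_option linter.unusedVariables false

noncomputable section

namespace Fermat.Agent.S59lib.StrictT

open Fermat.Agent.S19lib Fermat.Agent.S33lib Fermat.Agent.S33lib.Conn

local notation "Qb" => AlgebraicClosure ℚ
local notation "GQ" => (AlgebraicClosure ℚ ≃ₐ[ℚ] AlgebraicClosure ℚ)

variable {A : ValuationSubring Qb}
variable {J : Type} [AddCommGroup J] [DistribMulAction GQ J]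
variable {J' : Type} [AddCommGroup J'] [DistribMulAction GQ J']

/-- **abstract transfer, pull-back only, with the Frobenius clause (P4)** (copy of
`S33lib.Conn.exists_filt_of_pull` with one more clause). -/
theorem exists_filt_of_pull_new {p : ℕ} (pull : J →+ J')
    (hpull : ∀ (σ : GQ) (x : J), pull (σ • x) = σ • pull x)
    (d c u : ℕ) (hd : d = p ^ c * u) (hu : Nat.Coprime u p)
    (hker : ∀ x : J, pull x = 0 → d • x = 0) (n : ℕ)
    (hdiv : ∀ x : J, p ^ n • x = 0 → ∃ x₁ : J, p ^ (n + c) • x₁ = 0 ∧ p ^ c • x₁ = x)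
    (K' : AddSubgroup J') (hK'st : ∀ σ ∈ IA A, ∀ x ∈ K', σ • x ∈ K')
    (hP2' : ∀ σ ∈ IA A, ∀ τ ∈ IA A, ∀ y : J', p ^ (n + c) • y = 0 →
      σ • (τ • y - y) - (τ • y - y) ∈ K')
    (hK' : NoTrivSubquotIn A K')
    (Φ : Set GQ) (New : J → Prop) (New' : J' → Prop) (c₀ : ℕ)
    (hNew : ∀ x : J, p ^ (n + (c₀ + c)) • x = 0 → New x → New' (pull x))
    (hP4' : ∀ σ ∈ Φ, ∀ y : J', p ^ (n + c + c₀) • y = 0 → New' y →
      p ^ c₀ • (σ • σ • y - y) ∈ K') :
    ∃ K : AddSubgroup J, (∀ x ∈ K, p ^ n • x = 0) ∧ (∀ σ ∈ IA A, ∀ x ∈ K, σ • x ∈ K) ∧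
      (∀ σ ∈ IA A, ∀ τ ∈ IA A, ∀ x : J, p ^ n • x = 0 →
        σ • (τ • x - x) - (τ • x - x) ∈ K) ∧ NoTrivSubquotIn A K ∧
      ∀ σ ∈ Φ, ∀ x : J, p ^ (n + (c₀ + c)) • x = 0 → New x →
        p ^ (c₀ + c) • (σ • σ • x - x) ∈ K := by
  -- the `p^(n+c)`-torsion subgroup
  let T : AddSubgroup J :=
    { carrier := {x | p ^ (n + c) • x = 0}
      zero_mem' := smul_zero _
      add_mem' := fun {a b} ha hb => by
        show p ^ (n + c) • (a + b) = 0
        rw [smul_add, ha, hb, add_zero]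
      neg_mem' := fun {a} ha => by
        show p ^ (n + c) • (-a) = 0
        rw [smul_neg, ha, neg_zero] }
  have hT : ∀ x, x ∈ T ↔ p ^ (n + c) • x = 0 := fun x => Iff.rfl
  have hTst : ∀ (σ : GQ), ∀ x ∈ T, σ • x ∈ T := by
    intro σ x hx
    show p ^ (n + c) • (σ • x) = 0
    rw [smul_comm, (hT x).1 hx, smul_zero]
  -- multiplication by `p^c`
  let mulc : J →+ J := nsmulAddMonoidHom (p ^ c)
  have hmulc : ∀ x, mulc x = p ^ c • x := fun x => rfl
  have hmulcσ : ∀ (σ : GQ) (x : J), mulc (σ • x) = σ • mulc x := by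
    intro σ x
    rw [hmulc, hmulc, smul_comm]
  -- the subgroup `M`
  let M : AddSubgroup J := K'.comap pull ⊓ T
  have hM : ∀ x, x ∈ M ↔ pull x ∈ K' ∧ p ^ (n + c) • x = 0 := fun x => Iff.rfl
  have hMst : ∀ σ ∈ IA A, ∀ x ∈ M, σ • x ∈ M := by
    intro σ hσ x hx
    refine (hM _).2 ⟨?_, hTst σ x hx.2⟩
    rw [hpull]
    exact hK'st σ hσ _ ((hM x).1 hx).1
  refine ⟨M.map mulc, ?_, ?_, ?_, ?_, ?_⟩
  rotate_left 4
  · -- the Frobenius clause
    intro σ hσ x hx hnew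
    have hpullx : p ^ (n + c + c₀) • pull x = 0 := by
      rw [← map_nsmul, show n + c + c₀ = n + (c₀ + c) by ring, hx, map_zero]
    refine ⟨p ^ c₀ • (σ • σ • x - x), (hM _).2 ⟨?_, ?_⟩, ?_⟩
    · rw [map_nsmul, map_sub, hpull, hpull]
      exact hP4' σ hσ (pull x) hpullx (hNew x hx hnew)
    · rw [← mul_smul, ← pow_add, show n + c + c₀ = n + (c₀ + c) by ring, smul_sub, smul_comm,
        smul_comm _ σ, hx, smul_zero, smul_zero, sub_zero]
    · rw [hmulc, ← mul_smul, ← pow_add, add_comm c c₀]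
  · rintro x ⟨y, hy, rfl⟩
    rw [hmulc, ← mul_smul, ← pow_add]
    exact ((hM y).1 hy).2
  · rintro σ hσ x ⟨y, hy, rfl⟩
    exact ⟨σ • y, hMst σ hσ y hy, hmulcσ σ y⟩
  · intro σ hσ τ hτ x hx
    obtain ⟨x₁, hx₁, rfl⟩ := hdiv x hx
    refine ⟨σ • (τ • x₁ - x₁) - (τ • x₁ - x₁), (hM _).2 ⟨?_, ?_⟩, ?_⟩
    · rw [map_sub, hpull, map_sub, hpull]
      refine hP2' σ hσ τ hτ (pull x₁) ?_
      rw [← map_nsmul, hx₁, map_zero]
    · have h1 : τ • x₁ - x₁ ∈ T := T.sub_mem (hTst τ _ hx₁) hx₁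
      exact T.sub_mem (hTst σ _ h1) h1
    · rw [map_sub, map_sub, hmulcσ, map_sub, hmulcσ]
      rfl
  · intro Γ'' Γ' hle hΓ' hst'' hst' htriv
    -- the pull-backs along `mulc`
    have hmem : ∀ (Γ : AddSubgroup J) (y : J), y ∈ M ⊓ Γ.comap mulc ↔ y ∈ M ∧ mulc y ∈ Γ :=
      fun Γ y => Iff.rfl
    have hstab : ∀ Γ : AddSubgroup J, (∀ σ ∈ IA A, ∀ x ∈ Γ, σ • x ∈ Γ) →
        ∀ σ ∈ IA A, ∀ z ∈ (M ⊓ Γ.comap mulc).map pull, σ • z ∈ (M ⊓ Γ.comap mulc).map pull := by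
      rintro Γ hΓ σ hσ z ⟨y, hy, rfl⟩
      refine ⟨σ • y, (hmem Γ _).2 ⟨hMst σ hσ y hy.1, ?_⟩, hpull σ y⟩
      rw [hmulcσ]
      exact hΓ σ hσ _ hy.2
    have key : (M ⊓ Γ'.comap mulc).map pull ≤ (M ⊓ Γ''.comap mulc).map pull := by
      refine hK' _ _ (AddSubgroup.map_mono (inf_le_inf_left _ (AddSubgroup.comap_mono hle))) ?_
        (hstab Γ'' hst'') (hstab Γ' hst') ?_
      · rintro z ⟨y, hy, rfl⟩
        exact ((hM y).1 hy.1).1
      · rintro σ hσ z ⟨y, hy, rfl⟩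
        refine ⟨σ • y - y, (hmem Γ'' _).2 ⟨M.sub_mem (hMst σ hσ y hy.1) hy.1, ?_⟩, ?_⟩
        · rw [map_sub, hmulcσ]
          exact htriv σ hσ _ hy.2
        · rw [map_sub, hpull]
    intro x hx
    obtain ⟨y, hy, rfl⟩ := hΓ' hx
    obtain ⟨y'', hy'', hyy⟩ := key ⟨y, (hmem Γ' y).2 ⟨hy, hx⟩, rfl⟩
    -- `y - y''` is killed by `d` and by `p^(n+c)`, hence by `p^c`
    have h1 : (p ^ c * u) • (y - y'') = 0 := by
      rw [← hd]
      refine hker _ ?_
      rw [map_sub, hyy, sub_self]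
    have h2 : p ^ (n + c) • (y - y'') = 0 :=
      (hT _).1 (T.sub_mem ((hM y).1 hy).2 ((hM y'').1 hy''.1).2 |> fun h => h)
    have h3 : p ^ c • (y - y'') = 0 := pow_smul_eq_zero_of_coprime hu h1 h2
    have h4 : mulc y = mulc y'' := by
      rw [hmulc, hmulc, ← sub_eq_zero, ← smul_sub]
      exact h3
    rw [h4]
    exact hy''.2


end Fermat.Agent.S59lib.StrictT
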