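/-
S59lib / StrictT / GeomXfer  (helper1)  — Project I, STRICT-T: the geometric input at EVERY odd `p ∥ M p`.

* `PFiltNewAt M p c₀` : the algebraic filtration of `S33lib` (`PFiltAlgStmt`) at level `M p`, with the Frobenius
  clause (P4) up to the defect `p^c₀`:  `p^c₀ (σ² - 1) x ∈ K_n` for the `p`-new `x ∈ J₀(M p)[p^(n+c₀)]`;
* `pFiltNewAt_goodPair` : defect `0` at the good pairs (`StrictT/GeomDirect`);
* `pFiltNewAt_of_dvd`   : transfer from level `M' p` to level `M p`, `M ∣ M'`, `p ∤ M'`, along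
  `LSc.Xfer.pullLevel` (newness is preserved: `LSc.Xfer.isQNew_pullLevel`);
* `exists_pFiltNewAt`   : every odd `p ∤ M` (`p = 3`: through level `4 M`).
-/
import Mathlib
import Fermat.Agent.S59lib.StrictT.GeomDirect
import Fermat.Agent.S59lib.StrictT.XferAbs
import Fermat.Agent.LSc.Xfer.QNew
import Fermat.Agent.S33lib.Conn.XferMod

set_option autoImplicit false
set_option linter.unusedSectionVars false
set_option linter.unusedVariables false
set_option linter.style.haveILetI false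

noncomputable section

namespace Fermat.Agent.S59lib.StrictT

open AlgebraicCurve ModularCurve Fermat.Agent.S18lib Fermat.Agent.LSb Fermat.Agent.S37lib
open Fermat.Agent.S33lib Fermat.Agent.S19lib Fermat.Agent.S29lib Fermat.Agent.S35lib
open Fermat.Agent.LSc.Xfer Fermat.Agent.LSb.Xfer Fermat.Agent.S33lib.Conn

local notation "Qb" => AlgebraicClosure ℚ
local notation "GQ" => (AlgebraicClosure ℚ ≃ₐ[ℚ] AlgebraicClosure ℚ)

/-- **The algebraic filtration at level `M p` with the Frobenius clause (P4), defect `p^c₀`.** -/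
def PFiltNewAt (M p c₀ : ℕ) [NeZero M] [NeZero p] : Prop :=
  ∀ A : ValuationSubring Qb, A.LiesOverPrime p → ∀ n : ℕ,
    ∃ K : AddSubgroup (JZero (M * p)), K ≤ tors (M * p) ((p : ℤ) ^ n) ∧
      (∀ σ ∈ IA A, ∀ x ∈ K, σ • x ∈ K) ∧
      (∀ σ ∈ IA A, ∀ τ ∈ IA A, ∀ x ∈ tors (M * p) ((p : ℤ) ^ n),
        σ • (τ • x - x) - (τ • x - x) ∈ K) ∧
      NoTrivSubquotIn A K ∧
      ∀ σ : GQ, A.IsFrobeniusAt σ p → ∀ x ∈ tors (M * p) ((p : ℤ) ^ (n + c₀)),
        IsQNew M p x → p ^ c₀ • (σ • σ • x - x) ∈ K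

variable {M p : ℕ} [NeZero M] [NeZero p] [hp : Fact p.Prime]

/-- defect `0` at the good pairs -/
theorem pFiltNewAt_goodPair (hpM : ¬ p ∣ M) (hgood : GoodPair M p) (hp2 : p ≠ 2) :
    PFiltNewAt M p 0 := by
  intro A hA n
  obtain ⟨K, h1, h2, h3, h4, h5⟩ := exists_pFiltNew_goodPair hpM hgood hp2 hA n
  refine ⟨K, h1, h2, h3, h4, fun σ hσ x hx hnew => ?_⟩
  rw [pow_zero, one_smul]
  exact h5 σ hσ x hx hnew

theorem mem_tors_natPow_iff' {N : ℕ} [NeZero N] {p n : ℕ} (x : JZero N) :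
    x ∈ tors N ((p : ℤ) ^ n) ↔ p ^ n • x = 0 := mem_tors_natPow_iff x

/-- **transfer** from level `M' p` to level `M p` -/
theorem pFiltNewAt_of_dvd {M' : ℕ} [NeZero M'] (h : M ∣ M') (hp' : ¬ p ∣ M') (c₀' : ℕ)
    (H : PFiltNewAt M' p c₀') : ∃ c₀ : ℕ, PFiltNewAt M p c₀ := by
  have hpp : p.Prime := hp.out
  have hdvd : M * p ∣ M' * p := Nat.mul_dvd_mul_right h p
  have hd : levelDeg hdvd ≠ 0 := levelDeg_ne_zero hdvd
  obtain ⟨c, u, hu, hdd⟩ := Nat.exists_eq_pow_mul_and_not_dvd hd p hpp.ne_one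
  have hcop : Nat.Coprime u p := ((Nat.Prime.coprime_iff_not_dvd hpp).2 hu).symm
  refine ⟨c₀' + c, fun A hA n => ?_⟩
  have hpull : ∀ (σ : GQ) (x : JZero (M * p)), pullLevel hdvd (σ • x) = σ • pullLevel hdvd x :=
    fun σ x => pullLevel_smul hdvd σ x
  have hker : ∀ x : JZero (M * p), pullLevel hdvd x = 0 → levelDeg hdvd • x = 0 := by
    intro x hx
    have := smul_eq_zero_of_pullLevel_eq_zero hdvd hx
    rwa [natCast_zsmul] at this
  have hdiv : ∀ x : JZero (M * p), p ^ n • x = 0 →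
      ∃ x₁ : JZero (M * p), p ^ (n + c) • x₁ = 0 ∧ p ^ c • x₁ = x := by
    intro x hx
    obtain ⟨y, hy0, hy⟩ := exists_pow_smul_eq (M := JZero (M * p)) (p := p)
      (fun k x hx => exists_smul_eq hpp k x hx) c n x (by rw [natCast_zsmul]; exact hx)
    rw [natCast_zsmul] at hy0 hy
    exact ⟨y, hy0, hy⟩
  obtain ⟨K', hK'le, hK'st, hP2', hK', hP4'⟩ := H A hA (n + c)
  obtain ⟨K, h1, h2, h3, h4, h5⟩ := exists_filt_of_pull_new (A := A) (pullLevel hdvd) hpull _ c u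
    hdd hcop hker n hdiv K' hK'st
    (fun σ hσ τ hτ y hy => hP2' σ hσ τ hτ y ((mem_tors_natPow_iff y).2 hy)) hK'
    {σ | A.IsFrobeniusAt σ p} (IsQNew M p) (IsQNew M' p) c₀'
    (fun x hx hnew => isQNew_pullLevel h hp' (pow_ne_zero _ hpp.ne_zero)
      (by
        rw [Submodule.mem_torsionBy_iff, natCast_zsmul]
        exact hx) hnew)
    (fun σ hσ y hy hnew => hP4' σ hσ y ((mem_tors_natPow_iff y).2 hy) hnew)
  exact ⟨K, fun x hx => (mem_tors_natPow_iff x).2 (h1 x hx), h2,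
    fun σ hσ τ hτ x hx => h3 σ hσ τ hτ x ((mem_tors_natPow_iff x).1 hx), h4,
    fun σ hσ x hx hnew => h5 σ hσ x ((mem_tors_natPow_iff x).1 hx) hnew⟩

/-- **the geometric input of STRICT-T at every odd `p ∤ M`** -/
theorem exists_pFiltNewAt (hp2 : p ≠ 2) (hpM : ¬ p ∣ M) : ∃ c₀ : ℕ, PFiltNewAt M p c₀ := by
  have hpp : p.Prime := hp.out
  by_cases h5 : 5 ≤ p
  · exact ⟨0, pFiltNewAt_goodPair hpM (Or.inl h5) hp2⟩
  · have hp3 : p = 3 := by
      have h2 := hpp.two_le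
      have : p ≠ 4 := fun h => by rw [h] at hpp; exact absurd hpp (by decide)
      omega
    haveI : NeZero (4 * M) := ⟨Nat.mul_ne_zero (by norm_num) (NeZero.ne M)⟩
    have hp' : ¬ p ∣ 4 * M := by
      intro hd
      rcases (Nat.Prime.dvd_mul hpp).1 hd with h4 | hM
      · rw [hp3] at h4
        exact absurd h4 (by decide)
      · exact hpM hM
    exact pFiltNewAt_of_dvd (Dvd.intro_left 4 rfl : M ∣ 4 * M) hp' 0
      (pFiltNewAt_goodPair hp' (Or.inr (Or.inr ⟨hp3, Dvd.intro M rfl⟩)) hp2)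

end Fermat.Agent.S59lib.StrictT
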