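/-
S59lib / StrictT / HeckeKill  (helper1)  — Project I, STRICT-T item (4): THE HECKE KILLER OF A `p`-NEW EIGENSYSTEM.

`θ : 𝕋^S(M p) → k` an eigensystem (all primes dividing `M p` in `S`) which does NOT come from level `M`.  Then there is
a non-commutative integer polynomial `P₀` in the good Hecke operators (`ℓ ∤ M p`, `ℓ ∉ S`) with `θ(P₀(T)) ≠ 0` and
`P₀(T) = 0` on `S₂(Γ₀(M))`; hence `P₀(T) x` is `p`-new for every `x ∈ J₀(M p)[p'^k]` (`S35lib/New`).
-/
import Mathlib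
import Fermat.Agent.S35lib.New.Main
import Fermat.Agent.S35lib.Interface
import Fermat.Prelude.Def_CuspForm_HeckeAlgebra

set_option autoImplicit false
set_option linter.unusedSectionVars false
set_option linter.unusedVariables false
set_option linter.style.haveILetI false

noncomputable section

namespace Fermat.Agent.S59lib.StrictT

open CuspForm ModularCurve CongruenceSubgroup Fermat.Agent.S29lib Fermat.Agent.S35lib
  Fermat.Agent.S35lib.New

/-- the good primes: not dividing `N`, outside `S` -/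
abbrev GoodS (N : ℕ) (S : Set ℕ) : Type := {ℓ : Nat.Primes // ¬ (ℓ : ℕ) ∣ N ∧ (ℓ : ℕ) ∉ S}

section ev

variable (N : ℕ) (S : Set ℕ) (N' : ℕ) [NeZero N']

/-- evaluation of a non-commutative polynomial in the good Hecke operators, at a level `N' ∣ N` -/
def evAt (h : N' ∣ N) : FreeRing (GoodS N S) →+* heckeAlgebra N' 2 S :=
  FreeRing.lift (fun i => heckeAlgebra.T i.1.2 (fun hd => i.2.1 (hd.trans h)) i.2.2)

theorem evAt_of (h : N' ∣ N) (i : GoodS N S) :
    evAt N S N' h (FreeRing.of i) = heckeAlgebra.T i.1.2 (fun hd => i.2.1 (hd.trans h)) i.2.2 := by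
  unfold evAt
  rw [FreeRing.lift_of]

/-- the underlying operator of `evAt` -/
theorem coe_evAt (h : N' ∣ N) (P : FreeRing (GoodS N S)) :
    ((evAt N S N' h P : heckeAlgebra N' 2 S) : Module.End ℂ (CuspForm (Gamma0 N') 2)) =
      FreeRing.lift (fun i : GoodS N S => H.heckeS2 N' i.1) P := by
  have h1 := lift_map (heckeAlgebra N' 2 S).toSubring.subtype
    (fun i : GoodS N S => (heckeAlgebra.T i.1.2 (fun hd => i.2.1 (hd.trans h)) i.2.2 :
      heckeAlgebra N' 2 S)) P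
  have h2 : (fun i : GoodS N S => (heckeAlgebra N' 2 S).toSubring.subtype
      (heckeAlgebra.T i.1.2 (fun hd => i.2.1 (hd.trans h)) i.2.2 : heckeAlgebra N' 2 S)) =
      fun i : GoodS N S => H.heckeS2 N' i.1 := by
    funext i
    rw [H.heckeS2_of_not_dvd N' (fun hd => i.2.1 (hd.trans h))]
    rfl
  rw [h2] at h1
  rw [← h1]
  rfl

/-- `evAt` is surjective when all primes dividing `N` are in `S` -/
theorem evAt_surjective (h : N' ∣ N) (hNS : ∀ q : ℕ, q.Prime → q ∣ N → q ∈ S) :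
    Function.Surjective (evAt N S N' h) := by
  rintro ⟨x, hx⟩
  have key : ∃ P, ((evAt N S N' h P : heckeAlgebra N' 2 S) :
      Module.End ℂ (CuspForm (Gamma0 N') 2)) = x := by
    unfold heckeAlgebra at hx
    induction hx using Algebra.adjoin_induction with
    | mem x hx =>
      rcases hx with ⟨ℓ, hℓ, hℓN, hℓS, rfl⟩ | ⟨q, hqN, hq, hqS, rfl⟩
      · have hℓN' : ¬ ℓ ∣ N := fun hd => hℓS (hNS ℓ hℓ hd)
        refine ⟨FreeRing.of ⟨⟨ℓ, hℓ⟩, hℓN', hℓS⟩, ?_⟩
        rw [evAt_of]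
        rfl
      · exact absurd (hNS q hq (hqN.trans h)) hqS
    | algebraMap r =>
      refine ⟨(r : FreeRing (GoodS N S)), ?_⟩
      rw [map_intCast]
      simp
    | add x y _ _ hx hy =>
      obtain ⟨P, rfl⟩ := hx
      obtain ⟨Q, rfl⟩ := hy
      exact ⟨P + Q, by rw [map_add]; rfl⟩
    | mul x y _ _ hx hy =>
      obtain ⟨P, rfl⟩ := hx
      obtain ⟨Q, rfl⟩ := hy
      exact ⟨P * Q, by rw [map_mul]; rfl⟩
  obtain ⟨P, hP⟩ := key
  exact ⟨P, Subtype.ext hP⟩

end ev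

/-- **the killer, on forms**: an eigensystem of level `N` which does not come from level `N' ∣ N` is non-zero on a
polynomial in the good Hecke operators which kills `S₂(Γ₀(N'))`. -/
theorem exists_killer_of_not_factor {N : ℕ} [NeZero N] {S : Set ℕ} {N' : ℕ} [NeZero N'] (h : N' ∣ N)
    (hNS : ∀ q : ℕ, q.Prime → q ∣ N → q ∈ S) {k : Type*} [Field k]
    (θ : heckeAlgebra N 2 S →+* k)
    (hnew : ¬ ∃ θ' : heckeAlgebra N' 2 S →+* k,
      ∀ (ℓ : ℕ) (hℓ : ℓ.Prime) (hℓN : ¬ ℓ ∣ N) (hℓN' : ¬ ℓ ∣ N') (hℓS : ℓ ∉ S),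
        θ' (heckeAlgebra.T hℓ hℓN' hℓS) = θ (heckeAlgebra.T hℓ hℓN hℓS)) :
    ∃ P₀ : FreeRing (GoodS N S), θ (evAt N S N (dvd_refl N) P₀) ≠ 0 ∧
      FreeRing.lift (fun i : GoodS N S => H.heckeS2 N' i.1) P₀ = 0 := by
  classical
  by_contra hno
  push Not at hno
  apply hnew
  have hker : RingHom.ker (evAt N S N' h) ≤ RingHom.ker (θ.comp (evAt N S N (dvd_refl N))) := by
    intro P hP
    rw [RingHom.mem_ker] at hP ⊢
    rw [RingHom.comp_apply]
    by_contra h0
    have h1 := hno P h0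
    apply h1
    rw [← coe_evAt N S N' h P, hP]
    rfl
  refine ⟨(evAt N S N' h).liftOfSurjective (evAt_surjective N S N' h hNS)
    ⟨θ.comp (evAt N S N (dvd_refl N)), hker⟩, fun ℓ hℓ hℓN hℓN' hℓS => ?_⟩
  have e1 : (heckeAlgebra.T hℓ hℓN' hℓS : heckeAlgebra N' 2 S) =
      evAt N S N' h (FreeRing.of ⟨⟨ℓ, hℓ⟩, hℓN, hℓS⟩) := by rw [evAt_of]
  rw [e1, RingHom.liftOfSurjective_comp_apply, RingHom.comp_apply, evAt_of]

/-! ### newness of `P₀(T) x` on the Jacobian -/

section Intertwine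

variable {M q : ℕ} [NeZero M] [NeZero q] [Fact q.Prime] (hqM : ¬ q ∣ M)
  {ι : Type*} (e : ι → Nat.Primes) (he : ∀ i, ¬ ((e i : Nat.Primes) : ℕ) ∣ M * q)

include hqM he in
/-- `α_*` intertwines `P(TJ)` at level `M q` with `P(TJ)` at level `M`, on `p`-power torsion (any index set) -/
theorem pushAlpha_lift_TJ {p : ℕ} (hp : p.Prime) (Q : FreeRing ι) (k : ℕ)
    {x : JZero (M * q)} (hx : x ∈ Tors (M * q) (p ^ k)) :
    pushAlpha M q (FreeRing.lift (R := AddMonoid.End (JZero (M * q)))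
        (fun i : ι => H.TJ (M * q) (e i)) Q x) =
      FreeRing.lift (R := AddMonoid.End (JZero M)) (fun i : ι => H.TJ M (e i)) Q
        (pushAlpha M q x) := by
  have h := lift_intertwine
    ((pushA M q).comp (Tors (M * q) (p ^ k)).subtype.toAddMonoidHom)
    (fun i : ι => TJTors (comparisonDataAt (M * q) hp) (p ^ k) (e i))
    (fun i : ι => H.TJ M (e i))
    (fun i v => pushA_TJ hqM (e i) (he i) (pow_pos hp.pos k) (v : JZero (M * q))
      ((Submodule.mem_torsionBy_iff _ _).1 v.2)) Q ⟨x, hx⟩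
  have h2 := coe_lift_TJTors (comparisonDataAt (M * q) hp) e (p ^ k) Q ⟨x, hx⟩
  exact (congrArg (pushA M q) h2.symm).trans h

include hqM he in
/-- `β_*` intertwines `P(TJ)` at level `M q` with `P(TJ)` at level `M`, on `p`-power torsion (any index set) -/
theorem pushBeta_lift_TJ {p : ℕ} (hp : p.Prime) (Q : FreeRing ι) (k : ℕ)
    {x : JZero (M * q)} (hx : x ∈ Tors (M * q) (p ^ k)) :
    pushBeta M q (FreeRing.lift (R := AddMonoid.End (JZero (M * q)))
        (fun i : ι => H.TJ (M * q) (e i)) Q x) =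
      FreeRing.lift (R := AddMonoid.End (JZero M)) (fun i : ι => H.TJ M (e i)) Q
        (pushBeta M q x) := by
  have h := lift_intertwine
    ((pushB M q).comp (Tors (M * q) (p ^ k)).subtype.toAddMonoidHom)
    (fun i : ι => TJTors (comparisonDataAt (M * q) hp) (p ^ k) (e i))
    (fun i : ι => H.TJ M (e i))
    (fun i v => pushB_TJ hqM (e i) (he i) (pow_pos hp.pos k) (v : JZero (M * q))
      ((Submodule.mem_torsionBy_iff _ _).1 v.2)) Q ⟨x, hx⟩
  have h2 := coe_lift_TJTors (comparisonDataAt (M * q) hp) e (p ^ k) Q ⟨x, hx⟩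
  exact (congrArg (pushB M q) h2.symm).trans h

include hqM he in
/-- a polynomial in the good Hecke operators which kills `S₂(Γ₀(M))` makes all `p`-power torsion `q`-new -/
theorem isQNew_lift_TJ (Q : FreeRing ι)
    (hQ : FreeRing.lift (fun i : ι => H.heckeS2 M (e i)) Q = 0)
    {p : ℕ} (hp : p.Prime) (k : ℕ) {x : JZero (M * q)} (hx : x ∈ Tors (M * q) (p ^ k)) :
    IsQNew M q (FreeRing.lift (R := AddMonoid.End (JZero (M * q)))
        (fun i : ι => H.TJ (M * q) (e i)) Q x) := by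
  constructor
  · rw [pushAlpha_lift_TJ hqM e he hp Q k hx]
    exact killer_tors e Q hQ hp k (hom_mem_Tors' (pushAlpha M q) hx)
  · rw [pushBeta_lift_TJ hqM e he hp Q k hx]
    exact killer_tors e Q hQ hp k (hom_mem_Tors' (pushBeta M q) hx)

end Intertwine

/-- **STRICT-T item (4): the Hecke killer of a `p`-new eigensystem.** -/
theorem exists_pNew_killer {M p : ℕ} [NeZero M] [NeZero p] [Fact p.Prime] (hpM : ¬ p ∣ M) {S : Set ℕ}
    (hNS : ∀ q : ℕ, q.Prime → q ∣ M * p → q ∈ S) {k : Type*} [Field k]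
    (θ : heckeAlgebra (M * p) 2 S →+* k)
    (hnew : ¬ ∃ θ' : heckeAlgebra M 2 S →+* k,
      ∀ (ℓ : ℕ) (hℓ : ℓ.Prime) (hℓN : ¬ ℓ ∣ M * p) (hℓN' : ¬ ℓ ∣ M) (hℓS : ℓ ∉ S),
        θ' (heckeAlgebra.T hℓ hℓN' hℓS) = θ (heckeAlgebra.T hℓ hℓN hℓS)) :
    ∃ P₀ : FreeRing (GoodS (M * p) S), θ (evAt (M * p) S (M * p) (dvd_refl _) P₀) ≠ 0 ∧
      ∀ {p' : ℕ} (hp' : p'.Prime) (k : ℕ) {x : JZero (M * p)}, x ∈ Tors (M * p) (p' ^ k) →
        IsQNew M p (FreeRing.lift (R := AddMonoid.End (JZero (M * p)))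
          (fun i : GoodS (M * p) S => H.TJ (M * p) i.1) P₀ x) := by
  obtain ⟨P₀, h1, h2⟩ := exists_killer_of_not_factor (Dvd.intro p rfl) hNS θ hnew
  exact ⟨P₀, h1, fun hp' k x hx =>
    isQNew_lift_TJ hpM (fun i : GoodS (M * p) S => i.1) (fun i => i.2.1) P₀ h2 hp' k hx⟩

end Fermat.Agent.S59lib.StrictT
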