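/-
S59lib / StrictT / PmapHecke  (helper1)  — Project I, STRICT-T item (2), part 3.

* `pmap_hecke`  : the presentation `pmap : (J[p^n])^{O/𝔞} → (O/𝔞)^r` of `S33lib/Lat/Pmap` intertwines `P(TJ)` with the
  integer matrix `P(t)` (any non-commutative polynomial `P` in the Hecke operators);
* `lift_t_mulVec_umap` : on the lattice `U(O²)` spanned by Hecke eigenvectors, `P(t)` acts by the scalar `P(a)`.
-/
import Fermat.Agent.S33lib.Lat.Pmap
import Fermat.Agent.S33lib.Lat.Umap
import Fermat.Agent.S35lib.New.KillerJ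

set_option autoImplicit false
set_option linter.unusedSectionVars false
set_option linter.style.haveILetI false

noncomputable section

namespace Fermat.Agent.S59lib.StrictT

open Matrix Fermat.Agent.S29lib Fermat.Agent.S29lib.E Fermat.Agent.S29lib.S30 Fermat.Agent.S32lib
  Fermat.Agent.S33lib.Lat Fermat.Agent.S35lib.New

section pmap

variable {N p : ℕ} [NeZero N] (C : ComparisonData N p)
  {O : Type} [CommRing O] [IsLocalRing O] [IsAdicComplete (IsLocalRing.maximalIdeal O) O]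
  (hpO : (p : O) ∈ IsLocalRing.maximalIdeal O)
  (𝔞 : Ideal O) [Fintype (O ⧸ 𝔞)] (n : ℕ) (hn : IsLocalRing.maximalIdeal O ^ n ≤ 𝔞)
  {ι : Type*} (e : ι → Nat.Primes)

/-- **`pmap` intertwines `P(TJ)` with `P(t)`.** -/
theorem pmap_hecke (P : FreeRing ι) (m : (O ⧸ 𝔞) → Tors N (p ^ n)) :
    pmap C hpO 𝔞 n hn (fun c => FreeRing.lift (fun i => TJTors C (p ^ n) (e i)) P (m c)) =
      ((FreeRing.lift (fun i => C.t (e i)) P).map (Int.cast : ℤ → O ⧸ 𝔞)) *ᵥ
        pmap C hpO 𝔞 n hn m := by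
  funext i
  have h1 : ∀ c : O ⧸ 𝔞, C.κ n (FreeRing.lift (fun i => TJTors C (p ^ n) (e i)) P (m c)) =
      ((FreeRing.lift (fun i => C.t (e i)) P).map (Int.cast : ℤ → ZMod (p ^ n))) *ᵥ
        (C.κ n (m c)) := fun c => kappa_lift_TJ C e n P (m c)
  have lhs : pmap C hpO 𝔞 n hn
      (fun c => FreeRing.lift (fun i => TJTors C (p ^ n) (e i)) P (m c)) i =
      ∑ c : O ⧸ 𝔞, c * thetaQ hpO 𝔞 n hn
        ((((FreeRing.lift (fun i => C.t (e i)) P).map (Int.cast : ℤ → ZMod (p ^ n))) *ᵥ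
          (C.κ n (m c))) i) := by
    rw [pmap_apply]
    refine Finset.sum_congr rfl fun c _ => ?_
    rw [h1 c]
  have rhs : (((FreeRing.lift (fun i => C.t (e i)) P).map (Int.cast : ℤ → O ⧸ 𝔞)) *ᵥ
      pmap C hpO 𝔞 n hn m) i =
      ∑ l, ((FreeRing.lift (fun i => C.t (e i)) P i l : ℤ) : O ⧸ 𝔞) *
        ∑ c : O ⧸ 𝔞, c * thetaQ hpO 𝔞 n hn (C.κ n (m c) l) := by
    rw [Matrix.mulVec, dotProduct]
    refine Finset.sum_congr rfl fun l _ => ?_
    rw [Matrix.map_apply, pmap_apply]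
  refine lhs.trans (Eq.trans ?_ rhs.symm)
  simp only [Matrix.mulVec, dotProduct, map_sum, map_mul, Finset.mul_sum, Matrix.map_apply,
    map_intCast]
  rw [Finset.sum_comm]
  refine Finset.sum_congr rfl fun l _ => Finset.sum_congr rfl fun c _ => ?_
  ring

end pmap

section eigen

variable {O₂ : Type} [CommRing O₂] {r : ℕ} (w : Fin 2 → (Fin r → O₂))
  (Pm : Matrix (Fin 2) (Fin 2) O₂) {ι : Type*} (t : ι → Matrix (Fin r) (Fin r) ℤ) (a : ι → O₂)

/-- **on the lattice of Hecke eigenvectors, `P(t)` acts by the scalar `P(a)`.** -/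
theorem lift_t_mulVec_umap (heig : ∀ (i : ι) (j : Fin 2),
      (t i).map (Int.cast : ℤ → O₂) *ᵥ w j = a i • w j) (P : FreeRing ι) (x : Fin 2 → O₂) :
    ((FreeRing.lift t P).map (Int.cast : ℤ → O₂)) *ᵥ umap w Pm x =
      FreeRing.lift a P • umap w Pm x := by
  classical
  -- each `t i` acts on `U x` by `a i`
  have h1 : ∀ i, Matrix.mulVecLin ((t i).map (Int.cast : ℤ → O₂)) (umap w Pm x) =
      a i • umap w Pm x := by
    intro i
    rw [Matrix.mulVecLin_apply, umap_apply, Matrix.mulVec_sum, Finset.smul_sum]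
    refine Finset.sum_congr rfl fun j _ => ?_
    rw [Matrix.mulVec_smul, heig i j, smul_comm]
  have h2 := lift_eigen (fun i => Matrix.mulVecLin ((t i).map (Int.cast : ℤ → O₂))) a
    (umap w Pm x) h1 P
  -- `P` of the linear maps is the linear map of `P` of the matrices
  have h3 := lift_map (Matrix.toLinAlgEquiv' (R := O₂) (n := Fin r)).toRingEquiv.toRingHom
    (fun i => (t i).map (Int.cast : ℤ → O₂)) P
  have h4 : (fun i => (Matrix.toLinAlgEquiv' (R := O₂) (n := Fin r)).toRingEquiv.toRingHom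
      ((t i).map (Int.cast : ℤ → O₂))) =
      fun i => Matrix.mulVecLin ((t i).map (Int.cast : ℤ → O₂)) := rfl
  rw [h4] at h3
  rw [← h3] at h2
  have h5 := lift_matrix_map (Int.castRingHom O₂) t P
  have h6 : (fun i => (t i).map (Int.castRingHom O₂)) =
      fun i => (t i).map (Int.cast : ℤ → O₂) := rfl
  rw [h6] at h5
  rw [← h5] at h2
  exact h2

end eigen

end Fermat.Agent.S59lib.StrictT
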