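/-
S59lib / StrictT / LatPlus  (helper1)  — Project I, STRICT-T item (2): THE LATTICE ARGUMENT WITH FROBENIUS.

In the situation of S33 at level `M p` (`p ∤ M` odd) with a `p`-new eigensystem (Hecke killer `P₀`, `StrictT/HeckeKill`),
the geometric filtration with Frobenius clause (`PFiltNewAt M p c₀`, `StrictT/GeomXfer`) and an ordinary basis `b` at
the place `A ∣ p`:  for every character `ψ : T → O₁` and every Frobenius element `φ` at `A`,

    `ψ (matOf ρ b φ 1 1) ^ 2 = 1`.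

Proof: the `ψ`-lattice `Λ = U(O₂²) ⊆ O₂^r` of `S32lib/Lat`; `P₀(t)` acts on `Λ` by the unit `u₀ = ψ₂(π(P₀(T)))`; for
every tuple `m` of points of `J₀(M p)[p^n]` the tuple `(φ² - 1) P₀(TJ) m` has entries in `K_n` (Frobenius clause + newness of
`P₀(TJ) x` + divisibility of the torsion), so `U((R(φ²) - 1) z) mod 𝔞 ∈ imgK`; together with (P2) this puts
`(ζ² - 1) U(O₂²) mod 𝔞` inside `imgK` (`ζ = ψ₂(z(φ))`), contradicting `NoTrivSubquotIn` unless `ζ² = 1` (`StrictT/CorePlus`).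
-/
import Fermat.Agent.S33lib.Lat.Main
import Fermat.Agent.S59lib.StrictT.SetupPlus
import Fermat.Agent.S59lib.StrictT.HeckeKill
import Fermat.Agent.S59lib.StrictT.CorePlus
import Fermat.Agent.S59lib.StrictT.PmapHecke
import Fermat.Agent.S59lib.StrictT.GeomXfer
import Fermat.Agent.LSb.Xfer.Modular

set_option autoImplicit false
set_option linter.unusedSectionVars false
set_option linter.unusedVariables false
set_option linter.style.haveILetI false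

noncomputable section

namespace Fermat.Agent.S59lib.StrictT

open IsLocalRing Matrix Fermat.Agent.S31lib.RG Fermat.Agent.S31lib.TC Fermat.Agent.S29lib
  Fermat.Agent.S29lib.E Fermat.Agent.S29lib.S30 Fermat.Agent.S32lib Fermat.Agent.S19lib
  Fermat.Agent.S33lib Fermat.Agent.S33lib.Lat Fermat.Agent.S35lib Fermat.Agent.S35lib.New
  Fermat.Agent.LSb.Xfer CuspForm ModularCurve

/-- `ℚ̄` -/
local notation "Qb" => AlgebraicClosure ℚ
/-- `G_ℚ` -/
local notation "GQ" => (AlgebraicClosure ℚ ≃ₐ[ℚ] AlgebraicClosure ℚ)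

/-- the inertia group is contained in the decomposition group -/
theorem ia_le_da {A : ValuationSubring Qb} : IA A ≤ DA A := by
  rintro σ ⟨g, -, rfl⟩
  exact g.2

section frob

variable {M p : ℕ} [NeZero M] [NeZero p] [hpF : Fact p.Prime]
  {O : Type} [CommRing O] [IsLocalRing O] [IsAdicComplete (IsLocalRing.maximalIdeal O) O]
  (hpO : (p : O) ∈ IsLocalRing.maximalIdeal O)
  (𝔞 : Ideal O) [Fintype (O ⧸ 𝔞)] (n : ℕ) (hn : IsLocalRing.maximalIdeal O ^ n ≤ 𝔞)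
  {ι : Type*} (e : ι → Nat.Primes) (P₀ : FreeRing ι)

/-- the comparison datum at level `M p` -/
local notation "Cd" => comparisonDataAt (M * p) (Fact.out : p.Prime)

/-- the Galois action commutes with multiplication by a natural number -/
theorem galois_smul_nsmul {N : ℕ} [NeZero N] (σ : GQ) (m : ℕ) (x : JZero N) :
    σ • (m • x) = m • (σ • x) :=
  map_nsmul (DistribSMul.toAddMonoidHom (JZero N) σ) m x

/-- **the Frobenius clause transferred**: `(φ² - 1) P₀(t) y ∈ imgK` for every `y ∈ (O/𝔞)^r`. -/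
theorem frob_sub_mem_imgK (c₀ : ℕ) (K : AddSubgroup (JZero (M * p))) (φ : GQ)
    (hP4 : ∀ x ∈ tors (M * p) ((p : ℤ) ^ (n + c₀)), IsQNew M p x → p ^ c₀ • (φ • φ • x - x) ∈ K)
    (hP₀new : ∀ {x : JZero (M * p)}, x ∈ Tors (M * p) (p ^ (n + c₀)) →
      IsQNew M p (FreeRing.lift (R := AddMonoid.End (JZero (M * p)))
        (fun i => H.TJ (M * p) (e i)) P₀ x))
    (y : Fin (comparisonDataAt (M * p) hpF.out).r → O ⧸ 𝔞) :
    actQuot (comparisonDataAt (M * p) hpF.out) hpO 𝔞 (φ * φ)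
        (((FreeRing.lift (fun i => (comparisonDataAt (M * p) hpF.out).t (e i)) P₀).map
          (Int.cast : ℤ → O ⧸ 𝔞)) *ᵥ y) -
      ((FreeRing.lift (fun i => (comparisonDataAt (M * p) hpF.out).t (e i)) P₀).map
          (Int.cast : ℤ → O ⧸ 𝔞)) *ᵥ y ∈
      imgK (comparisonDataAt (M * p) hpF.out) hpO 𝔞 n hn K := by
  classical
  have hp : p.Prime := hpF.out
  obtain ⟨m₀, hm₀⟩ := pmap_surjective Cd hpO 𝔞 n hn y
  -- lifts of the entries to level `n + c₀`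
  have hdiv : ∀ c' : O ⧸ 𝔞, ∃ y₁ : JZero (M * p), y₁ ∈ Tors (M * p) (p ^ (n + c₀)) ∧
      p ^ c₀ • y₁ = ((m₀ c' : Tors (M * p) (p ^ n)) : JZero (M * p)) := by
    intro c'
    obtain ⟨y₁, h1, h2⟩ := exists_pow_smul_eq (M := JZero (M * p)) (p := p)
      (fun k x hx => exists_smul_eq hp k x hx) c₀ n ((m₀ c' : Tors (M * p) (p ^ n)) : JZero (M * p))
      ((Submodule.mem_torsionBy_iff _ _).1 (m₀ c').2)
    refine ⟨y₁, (Submodule.mem_torsionBy_iff _ _).2 h1, ?_⟩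
    rw [← h2, natCast_zsmul]
  choose m₁ hm₁ hm₁' using hdiv
  let PT : AddMonoid.End (Tors (M * p) (p ^ n)) :=
    FreeRing.lift (fun i => TJTors Cd (p ^ n) (e i)) P₀
  let mF : (O ⧸ 𝔞) → Tors (M * p) (p ^ n) :=
    fun c' => galTors (p ^ n) (φ * φ) (PT (m₀ c')) - PT (m₀ c')
  refine ⟨mF, ?_, ?_⟩
  · intro c'
    show ((mF c' : Tors (M * p) (p ^ n)) : JZero (M * p)) ∈ K
    have e1 : ((mF c' : Tors (M * p) (p ^ n)) : JZero (M * p)) =
        (φ * φ) • (FreeRing.lift (R := AddMonoid.End (JZero (M * p)))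
            (fun i => H.TJ (M * p) (e i)) P₀ ((m₀ c' : Tors (M * p) (p ^ n)) : JZero (M * p))) -
          FreeRing.lift (R := AddMonoid.End (JZero (M * p)))
            (fun i => H.TJ (M * p) (e i)) P₀ ((m₀ c' : Tors (M * p) (p ^ n)) : JZero (M * p)) := by
      show ((galTors (p ^ n) (φ * φ) (PT (m₀ c')) - PT (m₀ c') : Tors (M * p) (p ^ n)) :
        JZero (M * p)) = _
      rw [Submodule.coe_sub, coe_galTors]
      have := coe_lift_TJTors Cd e (p ^ n) P₀ (m₀ c')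
      rw [show ((PT (m₀ c') : Tors (M * p) (p ^ n)) : JZero (M * p)) = _ from this]
      rfl
    set y₁ : JZero (M * p) := FreeRing.lift (R := AddMonoid.End (JZero (M * p)))
      (fun i => H.TJ (M * p) (e i)) P₀ (m₁ c') with hy₁
    have e2 : FreeRing.lift (R := AddMonoid.End (JZero (M * p)))
        (fun i => H.TJ (M * p) (e i)) P₀ ((m₀ c' : Tors (M * p) (p ^ n)) : JZero (M * p)) =
        p ^ c₀ • y₁ := by
      rw [← hm₁' c', map_nsmul]
    have hy₁t : y₁ ∈ tors (M * p) ((p : ℤ) ^ (n + c₀)) := by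
      have h1 : y₁ ∈ Tors (M * p) (p ^ (n + c₀)) :=
        lift_TJ_mem_Tors Cd e (p ^ (n + c₀)) P₀ (hm₁ c')
      show y₁ ∈ Submodule.torsionBy ℤ (JZero (M * p)) ((p : ℤ) ^ (n + c₀))
      have h2 : ((p ^ (n + c₀) : ℕ) : ℤ) = (p : ℤ) ^ (n + c₀) := by push_cast; rfl
      rw [← h2]
      exact h1
    have h3 := hP4 y₁ hy₁t (hP₀new (hm₁ c'))
    rw [e1, e2, mul_smul]
    have e3 : φ • φ • (p ^ c₀ • y₁) - p ^ c₀ • y₁ = p ^ c₀ • (φ • φ • y₁ - y₁) := by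
      rw [nsmul_sub, galois_smul_nsmul, galois_smul_nsmul]
    rw [e3]
    exact h3
  · have hm : mF = (fun c' => galTors (p ^ n) (φ * φ) (PT (m₀ c'))) - (fun c' => PT (m₀ c')) := rfl
    rw [hm, map_sub, pmap_equivariant, pmap_hecke, hm₀]

end frob

section main

variable {M p : ℕ} [NeZero M] [NeZero p] [hpF : Fact p.Prime] {S : Finset ℕ}
  {𝒪 : Type} [CommRing 𝒪] [IsDomain 𝒪] [IsDiscreteValuationRing 𝒪]
  [IsAdicComplete (IsLocalRing.maximalIdeal 𝒪) 𝒪]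
  {θ : CuspForm.heckeAlgebra (M * p) 2 (↑S : Set ℕ) →+* IsLocalRing.ResidueField 𝒪}
  {T : Type} [CommRing T] [IsLocalRing T] [IsNoetherianRing T]
  [IsAdicComplete (IsLocalRing.maximalIdeal T) T] [Algebra 𝒪 T] [IsLocalHom (algebraMap 𝒪 T)]
  [Module.Finite 𝒪 T] [Module.Free 𝒪 T]

/-- the comparison datum at level `M p` -/
local notation "Cd" => comparisonDataAt (M * p) (Fact.out : p.Prime)

/-- a Hecke operator on which `θ` does not vanish is a unit of `T` -/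
theorem isUnit_π_of_ne_zero (HD : CuspForm.HeckeGaloisRepDatum (M * p) (↑S : Set ℕ) 𝒪 θ T)
    {t : CuspForm.heckeAlgebra (M * p) 2 (↑S : Set ℕ)} (h : θ t ≠ 0) : IsUnit (HD.π t) := by
  rw [← IsLocalRing.notMem_maximalIdeal, ← IsLocalRing.residue_eq_zero_iff, HD.residue_π]
  intro h0
  exact h ((map_eq_zero_iff _ (RingHom.injective _)).mp h0)

set_option maxHeartbeats 4000000 in
/-- **STRICT-T item (2)**: at every character, the unramified quotient character has square one at Frobenius. -/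
theorem sq_eq_one_of_char
    (hpM : ¬ p ∣ M) (hp𝒪 : (p : 𝒪) ∈ IsLocalRing.maximalIdeal 𝒪)
    (hNS : ∀ q : ℕ, q.Prime → q ∣ M * p → q ∈ S)
    (HD : CuspForm.HeckeGaloisRepDatum (M * p) (↑S : Set ℕ) 𝒪 θ T)
    {c₀ : ℕ} (hPF : PFiltNewAt M p c₀)
    (P₀ : FreeRing (GoodS (M * p) (↑S : Set ℕ)))
    (hP₀θ : θ (evAt (M * p) (↑S : Set ℕ) (M * p) (dvd_refl _) P₀) ≠ 0)
    (hP₀new : ∀ (k : ℕ) {x : JZero (M * p)}, x ∈ Tors (M * p) (p ^ k) →
      IsQNew M p (FreeRing.lift (R := AddMonoid.End (JZero (M * p)))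
        (fun i : GoodS (M * p) (↑S : Set ℕ) => H.TJ (M * p) i.1) P₀ x))
    {A : ValuationSubring Qb} (hA : A.LiesOverPrime p)
    (b : Module.Basis (Fin 2) T HD.ρ.V)
    (h10 : ∀ σ ∈ DA A, matOf HD.ρ b σ 1 0 = 0)
    (h11 : ∀ σ ∈ IA A, matOf HD.ρ b σ 1 1 = 1)
    (hχ : ∃ σ₀ ∈ IA A, IsUnit (matOf HD.ρ b σ₀ 0 0 - 1))
    {φ : GQ} (hφ : A.IsFrobeniusAt φ p)
    {O₁ : Type} [CommRing O₁] [IsDomain O₁] [IsDiscreteValuationRing O₁]
    [IsAdicComplete (maximalIdeal O₁) O₁] [Finite (ResidueField O₁)] [CharZero O₁]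
    [Algebra 𝒪 O₁] [IsLocalHom (algebraMap 𝒪 O₁)] (ψ : T →ₐ[𝒪] O₁) :
    ψ (matOf HD.ρ b φ 1 1) ^ 2 = 1 := by
  classical
  have hp : p.Prime := hpF.out
  have hpS : p ∈ S := hNS p hp (Dvd.intro_left M rfl)
  obtain ⟨O₂, i1, i2, i3, i4, i5, i6, i7, i8, i9, hinj, hpO₂, w, Mw, a₁, hli, hact, hquad, heig,
    ha₁⟩ := exists_piece_setup_eigen hp hp𝒪 hpS hNS HD b ψ
  obtain ⟨Pm, hPdet, hPm⟩ := exists_intertwiner HD.ρ b HD.residual_absIrr
    ((algebraMap O₁ O₂).comp (ψ : T →+* O₁)) Mw hquad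
  -- notation
  let ψ₂ : T →+* O₂ := (algebraMap O₁ O₂).comp (ψ : T →+* O₁)
  let R : GQ → Matrix (Fin 2) (Fin 2) O₂ := fun σ => (matOf HD.ρ b σ).map ψ₂
  have hR : ∀ σ i j, R σ i j = ψ₂ (matOf HD.ρ b σ i j) := fun σ i j => rfl
  let Gact : GQ → Matrix (Fin (Cd).r) (Fin (Cd).r) O₂ :=
    fun σ => galMatO (torsionSystemOf (Cd)) (maximalIdeal O₂) hpO₂ σ
  let I : Set GQ := {σ | σ ∈ IA A}
  by_contra hne
  -- the element `d`
  have hφD : φ ∈ DA A := hφ.mem_decompositionSubgroup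
  have hφφ : R (φ * φ) 1 1 - 1 = ψ₂ (matOf HD.ρ b φ 1 1) ^ 2 - 1 := by
    rw [hR, map_mul, Matrix.mul_apply, Fin.sum_univ_two, h10 φ hφD, zero_mul, zero_add, map_mul,
      sq]
  have hd0 : ψ₂ (matOf HD.ρ b φ 1 1) ^ 2 - 1 ≠ 0 := by
    intro h0
    apply hne
    have h1 : algebraMap O₁ O₂ (ψ (matOf HD.ρ b φ 1 1) ^ 2) = algebraMap O₁ O₂ 1 := by
      rw [map_pow, map_one]
      exact sub_eq_zero.mp h0
    exact hinj h1
  -- the linear map `U`
  have hU : ∀ (σ : GQ) (x : Fin 2 → O₂), Gact σ *ᵥ umap w Pm x = umap w Pm (R σ *ᵥ x) :=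
    umap_equivariant w Pm Gact (fun σ => Mw σ) R hact (fun σ => hPm σ)
  -- the level
  have hp0 : (p : O₂) ≠ 0 := Nat.cast_ne_zero.mpr hp.ne_zero
  obtain ⟨a, hsat⟩ := exists_pow_sat w Pm hli hPdet hd0 hp0 hpO₂
  have hpa0 : (p : O₂) ^ a ≠ 0 := pow_ne_zero _ hp0
  obtain ⟨n, hn⟩ := exists_pow_le_span hpa0
  haveI : Finite (O₂ ⧸ maximalIdeal O₂) := inferInstanceAs (Finite (ResidueField O₂))
  haveI : Finite (O₂ ⧸ maximalIdeal O₂ ^ n) :=
    Ideal.finite_quotient_pow (IsNoetherian.noetherian _) n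
  haveI : Finite (O₂ ⧸ Ideal.span {(p : O₂) ^ a}) :=
    Finite.of_surjective (Ideal.Quotient.factor hn) (Ideal.Quotient.factor_surjective hn)
  haveI : Fintype (O₂ ⧸ Ideal.span {(p : O₂) ^ a}) := Fintype.ofFinite _
  -- the filtration at level `n`
  obtain ⟨K, hKle, hKst, hP2, hKno, hP4⟩ := hPF A hA n
  -- the unit `u₀`
  set t₀ := evAt (M * p) (↑S : Set ℕ) (M * p) (dvd_refl _) P₀ with ht₀
  have hu₀ : IsUnit (ψ₂ (HD.π t₀)) := (isUnit_π_of_ne_zero HD hP₀θ).map ψ₂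
  obtain ⟨u₀, hu₀'⟩ := hu₀
  have hchar : FreeRing.lift (fun i : GoodS (M * p) (↑S : Set ℕ) => a₁ i.1) P₀ = ψ₂ (HD.π t₀) := by
    have h1 := lift_map (ψ₂.comp HD.π)
      (fun i : GoodS (M * p) (↑S : Set ℕ) =>
        (CuspForm.heckeAlgebra.T i.1.2 (fun hd => i.2.1 (hd.trans (dvd_refl _))) i.2.2 :
          CuspForm.heckeAlgebra (M * p) 2 (↑S : Set ℕ))) P₀
    have h2 : (fun i : GoodS (M * p) (↑S : Set ℕ) => (ψ₂.comp HD.π)
        (CuspForm.heckeAlgebra.T i.1.2 (fun hd => i.2.1 (hd.trans (dvd_refl _))) i.2.2 :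
          CuspForm.heckeAlgebra (M * p) 2 (↑S : Set ℕ))) =
        fun i : GoodS (M * p) (↑S : Set ℕ) => a₁ i.1 := by
      funext i
      exact (ha₁ i.1.1 i.1.2 i.2.1 i.2.2).symm
    rw [h2] at h1
    rw [← h1]
    rfl
  -- reduction of `U`
  let 𝔞 : Ideal O₂ := Ideal.span {(p : O₂) ^ a}
  let red : (Fin 2 → O₂) → (Fin (Cd).r → O₂ ⧸ 𝔞) :=
    fun y i => Ideal.Quotient.mk 𝔞 (umap w Pm y i)
  -- `φ₁ ((R σ - 1) y') = act σ (φ₁ y') - φ₁ y'`
  have hφact : ∀ (σ' : GQ) (y' : Fin 2 → O₂),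
      red ((R σ' - 1) *ᵥ y') = actQuot (Cd) hpO₂ 𝔞 σ' (red y') - red y' := by
    intro σ' y'
    funext i
    have h1 := RingHom.map_mulVec (Ideal.Quotient.mk 𝔞) (Gact σ') (umap w Pm y') i
    rw [hU] at h1
    show Ideal.Quotient.mk 𝔞 (umap w Pm ((R σ' - 1) *ᵥ y') i) = _
    rw [Matrix.sub_mulVec, Matrix.one_mulVec, map_sub, Pi.sub_apply, map_sub, h1]
    rfl
  refine false_of_ordinary_frob I (umap w Pm) Gact R hU
    (fun σ hσ => by rw [hR, h10 σ (ia_le_da hσ), map_zero])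
    (fun σ hσ => by rw [hR, h11 σ hσ, map_one]) ?_ ?_ ?_ (φ * φ) _ hφφ 𝔞 hsat
    (imgK (Cd) hpO₂ 𝔞 n hn K) ?_ ?_ ?_
  · exact hχ.choose
  · exact hχ.choose_spec.1
  · have h1 := hχ.choose_spec.2.map ψ₂
    rw [map_sub, map_one] at h1
    exact h1
  · -- (P2)
    intro σ hσ τ hτ z c
    have e : c • ((R σ - 1) *ᵥ ((R τ - 1) *ᵥ z)) = (R σ - 1) *ᵥ ((R τ - 1) *ᵥ (c • z)) := by
      rw [Matrix.mulVec_smul, Matrix.mulVec_smul]
    show red (c • ((R σ - 1) *ᵥ ((R τ - 1) *ᵥ z))) ∈ _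
    rw [e, hφact σ, hφact τ]
    exact sub_sub_mem_imgK (Cd) hpO₂ _ n hn A K hP2 hσ hτ _
  · -- the Frobenius clause
    intro z c
    show red (c • ((R (φ * φ) - 1) *ᵥ z)) ∈ _
    have e : c • ((R (φ * φ) - 1) *ᵥ z) = (R (φ * φ) - 1) *ᵥ (c • z) := by
      rw [Matrix.mulVec_smul]
    rw [e, hφact (φ * φ)]
    -- `red (c • z) = P₀(t) (red z')`
    have hz' : red (c • z) =
        ((FreeRing.lift (fun i : GoodS (M * p) (↑S : Set ℕ) => (Cd).t i.1) P₀).map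
          (Int.cast : ℤ → O₂ ⧸ 𝔞)) *ᵥ red (((↑u₀⁻¹ : O₂) * c) • z) := by
      funext i
      have h1 := lift_t_mulVec_umap w Pm (fun i : GoodS (M * p) (↑S : Set ℕ) => (Cd).t i.1)
        (fun i : GoodS (M * p) (↑S : Set ℕ) => a₁ i.1) (fun i j => heig i.1 j) P₀
        (((↑u₀⁻¹ : O₂) * c) • z)
      rw [hchar, ← hu₀', ← map_smul, smul_smul, ← mul_assoc, Units.mul_inv, one_mul] at h1
      have h2 := RingHom.map_mulVec (Ideal.Quotient.mk 𝔞)
        ((FreeRing.lift (fun i : GoodS (M * p) (↑S : Set ℕ) => (Cd).t i.1) P₀).map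
          (Int.cast : ℤ → O₂)) (umap w Pm (((↑u₀⁻¹ : O₂) * c) • z)) i
      rw [h1] at h2
      show Ideal.Quotient.mk 𝔞 (umap w Pm (c • z) i) = _
      rw [h2, Matrix.map_map]
      have h3 : (⇑(Ideal.Quotient.mk 𝔞) ∘ (Int.cast : ℤ → O₂)) = (Int.cast : ℤ → O₂ ⧸ 𝔞) := by
        funext m
        simp
      rw [h3]
      rfl
    rw [hz']
    exact frob_sub_mem_imgK hpO₂ 𝔞 n hn (fun i : GoodS (M * p) (↑S : Set ℕ) => i.1) P₀ c₀ K φ
      (fun x hx hnew => hP4 φ hφ x hx hnew) (fun hx => hP₀new (n + c₀) hx) _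
  · -- no trivial subquotient inside `imgK`
    intro Γ'' Γ' hle hΓ' hst'' hst' htriv
    exact noTrivSubquot_imgK (Cd) hpO₂ 𝔞 n hn A K hKno hKst Γ'' Γ' hle hΓ' hst'' hst' htriv

end main

end Fermat.Agent.S59lib.StrictT
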