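/-
S59lib / StrictT / Main  (helper1)  — Project I: **STRICT-T**.

`strictT` : in the situation of S33 (`p` odd, `p ∥ N`, all primes of `N` in `S`, residually ordinary), if the eigensystem
`θ` is `p`-NEW — it does not come from the Hecke algebra of level `N / p` — then the Hecke representation `H.ρ` is
**strictly** ordinary at `p` (`GaloisRepAdic.IsStrictOrdinaryAt`): the unramified quotient character of `D_p` has square
one.

Assembly of
* S33 (`H.ρ` ordinary), `S43lib.B3.heckeDatum_detIsCyclotomic` (`det = χ_p`),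
* `R3/Strict` (helper9): strictness from `z(φ)² = 1` at one Frobenius element of each place over `p`,
* `StrictT/GeomXfer.exists_pFiltNewAt` (geometry: the Frobenius clause on the `p`-new torsion),
* `StrictT/HeckeKill.exists_pNew_killer` (the Hecke killer of a `p`-new eigensystem),
* `StrictT/LatPlus.sq_eq_one_of_char` (the lattice argument at each character `ψ : T → O₁`),
* `S32lib.exists_characters_dvr` (enough characters).
-/
import Mathlib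
import Fermat.Agent.S33
import Fermat.Agent.S22
import Fermat.Agent.S43lib.B3.HeckeType
import Fermat.Agent.S32lib.Chars.Main
import Fermat.Agent.S31lib.PET.Main
import Fermat.Agent.S33lib.TLevel.Det
import Fermat.Agent.S59lib.R3.Strict
import Fermat.Agent.S59lib.StrictT.LatPlus
import Fermat.Prelude.Def_GaloisRep_StrictOrdinary

set_option autoImplicit false
set_option linter.unusedSectionVars false
set_option linter.unusedVariables false
set_option linter.style.haveILetI false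

noncomputable section

namespace Fermat.Agent.S59lib.StrictT

open IsLocalRing CuspForm Fermat.Agent.S32lib Fermat.Agent.S19lib Fermat.Agent.S59lib.R3

/-- `ℚ̄` -/
local notation "Qb" => AlgebraicClosure ℚ
/-- `G_ℚ` -/
local notation "GQ" => (AlgebraicClosure ℚ ≃ₐ[ℚ] AlgebraicClosure ℚ)

section core

variable {M p : ℕ} [NeZero M] [NeZero p] [hpF : Fact p.Prime] {S : Finset ℕ}
  {𝒪 : Type} [CommRing 𝒪] [IsDomain 𝒪] [IsDiscreteValuationRing 𝒪]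
  [IsAdicComplete (IsLocalRing.maximalIdeal 𝒪) 𝒪]
  {θ : CuspForm.heckeAlgebra (M * p) 2 (↑S : Set ℕ) →+* IsLocalRing.ResidueField 𝒪}
  {T : Type} [CommRing T] [IsLocalRing T] [IsNoetherianRing T]
  [IsAdicComplete (IsLocalRing.maximalIdeal T) T] [Algebra 𝒪 T] [IsLocalHom (algebraMap 𝒪 T)]
  [Module.Finite 𝒪 T] [Module.Free 𝒪 T]

/-- **STRICT-T at level `M p`, `p ∤ M`.** -/
theorem strictT_mul [Finite (IsLocalRing.ResidueField 𝒪)] [CharZero 𝒪]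
    (hp2 : p ≠ 2) (hpM : ¬ p ∣ M) (hp𝒪 : (p : 𝒪) ∈ IsLocalRing.maximalIdeal 𝒪)
    (hNS : ∀ q : ℕ, q.Prime → q ∣ M * p → q ∈ S)
    (HD : CuspForm.HeckeGaloisRepDatum (M * p) (↑S : Set ℕ) 𝒪 θ T)
    (hres : (GaloisRepAdic.ofResidualGaloisRep HD.ρ.residual).IsOrdinaryAt p)
    (hnew : ¬ ∃ θ' : CuspForm.heckeAlgebra M 2 (↑S : Set ℕ) →+* IsLocalRing.ResidueField 𝒪,
      ∀ (ℓ : ℕ) (hℓ : ℓ.Prime) (hℓN : ¬ ℓ ∣ M * p) (hℓN' : ¬ ℓ ∣ M) (hℓS : ℓ ∉ (↑S : Set ℕ)),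
        θ' (heckeAlgebra.T hℓ hℓN' hℓS) = θ (heckeAlgebra.T hℓ hℓN hℓS)) :
    HD.ρ.IsStrictOrdinaryAt p := by
  classical
  have hp : p.Prime := hpF.out
  have hN : p ∣ M * p ∧ ¬ p ^ 2 ∣ M * p := by
    refine ⟨Dvd.intro_left M rfl, fun h => hpM ?_⟩
    rw [sq] at h
    exact (Nat.mul_dvd_mul_iff_right hp.pos).mp h
  have hdet : HD.ρ.DetIsCyclotomic p :=
    Fermat.Agent.S43lib.B3.heckeDatum_detIsCyclotomic hp hp𝒪 hNS HD
  have hord : HD.ρ.IsOrdinaryAt p := Fermat.Agent.S33.result hp hp2 hp𝒪 hN hNS HD hres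
  -- the geometric input and the Hecke killer
  obtain ⟨c₀, hPF⟩ := exists_pFiltNewAt (M := M) (p := p) hp2 hpM
  obtain ⟨P₀, hP₀θ, hP₀new⟩ := exists_pNew_killer hpM hNS θ hnew
  -- enough characters
  haveI : IsReduced ↥(CuspForm.heckeAlgebra (M * p) 2 (↑S : Set ℕ)) :=
    Fermat.Agent.S31lib.PET.isReduced_heckeAlgebra' (fun q hq hqN => Finset.mem_coe.mpr (hNS q hq hqN))
  haveI : Module.Finite ℤ ↥(CuspForm.heckeAlgebra (M * p) 2 (↑S : Set ℕ)) :=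
    Fermat.Agent.S22.result (M * p) 2 (↑S : Set ℕ)
  obtain ⟨κ, hκ, O₁, i1, i2, i3, i4, i5, i6, i7, i8, i9, hinj, ψ, hψ⟩ :=
    exists_characters_dvr HD.π HD.adjoin_range_π
  refine isStrictOrdinaryAt_of_sq' hdet hord fun A hA b hb => ?_
  -- a Frobenius element at `A`
  haveI : Normal ℚ (⊥ : IntermediateField ℚ Qb) :=
    Normal.of_algEquiv (IntermediateField.botEquiv ℚ Qb).symm
  obtain ⟨φ, hφ, -⟩ := exists_isFrobeniusAt_generates hp hA (⊥ : IntermediateField ℚ Qb)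
  haveI hH : IsHausdorff (maximalIdeal T) T := IsAdicComplete.toIsHausdorff
  refine @OrdBasis.sq_eq_one_of_frobenius A p T _ _ HD.ρ b hH hp hA hb φ hφ ?_
  -- the unit on inertia
  have hχ : ∃ σ₀ ∈ IA A, IsUnit (Fermat.Agent.S31lib.RG.matOf HD.ρ b σ₀ 0 0 - 1) := by
    obtain ⟨σ₀, hσ₀, h1⟩ :=
      Fermat.Agent.S33lib.TLevel.exists_inertia_det_sub_one_notMem_datum hp hp2 hp𝒪 HD A hA
    refine ⟨σ₀, hσ₀, ?_⟩
    rw [hb.det_eq (ia_le_da hσ₀), hb.matOf_11 hσ₀, mul_one, IsLocalRing.notMem_maximalIdeal] at h1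
    exact h1
  -- `z(φ)² = 1` at every character
  rw [← sub_eq_zero]
  apply hψ
  intro k
  rw [map_sub, map_pow, map_one, sub_eq_zero]
  exact sq_eq_one_of_char hpM hp𝒪 hNS HD hPF P₀ hP₀θ (fun k x hx => hP₀new hp k hx) hA b
    (fun σ hσ => hb.matOf_10 hσ) (fun σ hσ => hb.matOf_11 hσ) hχ hφ (ψ k)

end core

section general

/-- transport of the newness hypothesis along an equality of levels -/
theorem not_factor_congr {N M' M : ℕ} [NeZero N] [NeZero M'] [NeZero M] (e : M' = M) {S : Set ℕ}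
    {k : Type*} [Field k] (θ : CuspForm.heckeAlgebra N 2 S →+* k)
    (h : ¬ ∃ θ' : CuspForm.heckeAlgebra M' 2 S →+* k,
      ∀ (ℓ : ℕ) (hℓ : ℓ.Prime) (hℓN : ¬ ℓ ∣ N) (hℓN' : ¬ ℓ ∣ M') (hℓS : ℓ ∉ S),
        θ' (heckeAlgebra.T hℓ hℓN' hℓS) = θ (heckeAlgebra.T hℓ hℓN hℓS)) :
    ¬ ∃ θ' : CuspForm.heckeAlgebra M 2 S →+* k,
      ∀ (ℓ : ℕ) (hℓ : ℓ.Prime) (hℓN : ¬ ℓ ∣ N) (hℓN' : ¬ ℓ ∣ M) (hℓS : ℓ ∉ S),
        θ' (heckeAlgebra.T hℓ hℓN' hℓS) = θ (heckeAlgebra.T hℓ hℓN hℓS) := by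
  subst e
  exact h

variable {p : ℕ} {N : ℕ} [NeZero N] {S : Finset ℕ}
  {𝒪 : Type} [CommRing 𝒪] [IsDomain 𝒪] [IsDiscreteValuationRing 𝒪]
  [IsAdicComplete (IsLocalRing.maximalIdeal 𝒪) 𝒪]
  {θ : CuspForm.heckeAlgebra N 2 (↑S : Set ℕ) →+* IsLocalRing.ResidueField 𝒪}
  {T : Type} [CommRing T] [IsLocalRing T] [IsNoetherianRing T]
  [IsAdicComplete (IsLocalRing.maximalIdeal T) T] [Algebra 𝒪 T] [IsLocalHom (algebraMap 𝒪 T)]
  [Module.Finite 𝒪 T] [Module.Free 𝒪 T]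

/-- **STRICT-T**: the Hecke representation of a `p`-new eigensystem of level `N`, `p ∥ N` odd, residually ordinary, is
strictly ordinary at `p`. -/
theorem strictT [Finite (IsLocalRing.ResidueField 𝒪)] [CharZero 𝒪]
    (hp : p.Prime) (hp2 : p ≠ 2) (hp𝒪 : (p : 𝒪) ∈ IsLocalRing.maximalIdeal 𝒪)
    (hN : p ∣ N ∧ ¬ p ^ 2 ∣ N) (hNS : ∀ q : ℕ, q.Prime → q ∣ N → q ∈ S)
    (HD : CuspForm.HeckeGaloisRepDatum N (↑S : Set ℕ) 𝒪 θ T)
    (hres : (GaloisRepAdic.ofResidualGaloisRep HD.ρ.residual).IsOrdinaryAt p)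
    [NeZero (N / p)]
    (hnew : ¬ ∃ θ' : CuspForm.heckeAlgebra (N / p) 2 (↑S : Set ℕ) →+* IsLocalRing.ResidueField 𝒪,
      ∀ (ℓ : ℕ) (hℓ : ℓ.Prime) (hℓN : ¬ ℓ ∣ N) (hℓN' : ¬ ℓ ∣ N / p) (hℓS : ℓ ∉ (↑S : Set ℕ)),
        θ' (heckeAlgebra.T hℓ hℓN' hℓS) = θ (heckeAlgebra.T hℓ hℓN hℓS)) :
    HD.ρ.IsStrictOrdinaryAt p := by
  obtain ⟨M, hM⟩ := hN.1
  have hNM : N = M * p := by rw [hM, mul_comm]
  subst hNM
  haveI : NeZero M := ⟨fun h => NeZero.ne (M * p) (by rw [h, zero_mul])⟩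
  haveI : NeZero p := ⟨hp.ne_zero⟩
  haveI : Fact p.Prime := ⟨hp⟩
  have hpM : ¬ p ∣ M := by
    intro h
    apply hN.2
    rw [sq]
    exact Nat.mul_dvd_mul h (dvd_refl p)
  exact strictT_mul hp2 hpM hp𝒪 hNS HD hres
    (not_factor_congr (Nat.mul_div_cancel M hp.pos) θ hnew)

end general

end Fermat.Agent.S59lib.StrictT
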